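import Mathlib
import Fermat.Agent.S55.LevelFields

/-!
# S56, node [LOC-q], part [TAME]: tame inertia at a prime `q` is pro-cyclic (prefix `s56q_`)

`P` a valuation subring of `ℚ̄` over the prime `q`, `I = P.inertiaSubgroupIn ℚ`.

* `s56q_val_map` : `σ ∈ D_P` preserves the valuation of `P`.
* `s56q_wild_fix` : a wild element (`v(σx - x) < v(x)`) of order prime to `q` on `x` fixes `x`.
* `s56q_exists_unif` : every finite-dimensional `L ⊆ ℚ̄` has a uniformiser at `P`.
* `s56q_theta` : the tame character `σ ↦ σπ/π mod 𝔪_P`, a homomorphism `I → κ(P)ˣ`.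
* `s56q_tame_cyclic` : for a finite-level monoid hom `f : G_ℚ →* M` whose values on `I` have
  order prime to `q`, the image `f(I)` is generated by a single `f τ`, `τ ∈ I`.
-/

set_option autoImplicit false

open scoped Pointwise

namespace Fermat.Agent.S56

local notation "Qbar" => AlgebraicClosure ℚ
local notation "GQ" => (AlgebraicClosure ℚ ≃ₐ[ℚ] AlgebraicClosure ℚ)

section basic

variable (P : ValuationSubring Qbar)

theorem s56q_nonunits_map {σ : GQ} (hσ : σ • P = P) {z : Qbar} (hz : z ∈ P.nonunits) :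
    σ z ∈ P.nonunits := by
  have h := Fermat.Agent.S55.tl_map_mem_nonunits_smul (K := ℚ) P σ hz
  rwa [hσ] at h

theorem s56q_val_lt_map {σ : GQ} (hσ : σ • P = P) {a y : Qbar}
    (h : P.valuation a < P.valuation y) : P.valuation (σ a) < P.valuation (σ y) := by
  have hy0 : y ≠ 0 := by
    rintro rfl
    rw [map_zero] at h
    exact not_lt_zero h
  have hvy : P.valuation y ≠ 0 := (Valuation.ne_zero_iff _).2 hy0
  have hσy0 : σ y ≠ 0 := fun h0 => hy0 (by simpa using h0)
  have hvσy : P.valuation (σ y) ≠ 0 := (Valuation.ne_zero_iff _).2 hσy0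
  have h1 : a / y ∈ P.nonunits := by
    rw [ValuationSubring.mem_nonunits_iff, map_div₀]
    exact (div_lt_one₀ (zero_lt_iff.2 hvy)).2 h
  have h2 := s56q_nonunits_map P hσ h1
  rw [map_div₀, ValuationSubring.mem_nonunits_iff, map_div₀] at h2
  exact (div_lt_one₀ (zero_lt_iff.2 hvσy)).1 h2

end basic

theorem s56q_exists_pow_fix (σ : GQ) (x : Qbar) : ∃ n : ℕ, 0 < n ∧ (σ ^ n) x = x := by
  have hx : IsIntegral ℚ x := (AlgebraicClosure.isAlgebraic ℚ).isIntegral.isIntegral x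
  have hp : minpoly ℚ x ≠ 0 := minpoly.ne_zero hx
  have hfin : ((minpoly ℚ x).rootSet Qbar).Finite := Polynomial.rootSet_finite _ _
  have hmem : ∀ i : ℕ, (σ ^ i) x ∈ (minpoly ℚ x).rootSet Qbar := by
    intro i
    rw [Polynomial.mem_rootSet]
    refine ⟨hp, ?_⟩
    rw [Polynomial.aeval_algEquiv, AlgHom.comp_apply]
    simp [minpoly.aeval]
  have := hfin.to_subtype
  obtain ⟨i, j, hij, h⟩ := Finite.exists_ne_map_eq_of_infinite
    (fun i : ℕ => (⟨(σ ^ i) x, hmem i⟩ : (minpoly ℚ x).rootSet Qbar))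
  have h' : (σ ^ i) x = (σ ^ j) x := congrArg Subtype.val h
  have key : ∀ a b : ℕ, a < b → (σ ^ a) x = (σ ^ b) x → ∃ n : ℕ, 0 < n ∧ (σ ^ n) x = x := by
    intro a b hab hh
    refine ⟨b - a, Nat.sub_pos_of_lt hab, ?_⟩
    have hb : b = a + (b - a) := by omega
    rw [hb, pow_add, AlgEquiv.mul_apply] at hh
    exact ((σ ^ a).injective hh).symm
  rcases lt_or_gt_of_ne hij with h1 | h1
  · exact key i j h1 h'
  · exact key j i h1 h'.symm

section valmap

variable (P : ValuationSubring Qbar)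

theorem s56q_val_map {σ : GQ} (hσ : σ • P = P) (x : Qbar) :
    P.valuation (σ x) = P.valuation x := by
  obtain ⟨n, hn, hfix⟩ := s56q_exists_pow_fix σ x
  obtain ⟨m, rfl⟩ : ∃ m, n = m + 1 := ⟨n - 1, by omega⟩
  rcases lt_trichotomy (P.valuation (σ x)) (P.valuation x) with h | h | h
  · exfalso
    have key : ∀ k : ℕ, P.valuation ((σ ^ (k + 1)) x) < P.valuation x := by
      intro k
      induction k with
      | zero => simpa using h
      | succ k ih =>
        have h1 := s56q_val_lt_map P hσ ih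
        have h2 : σ ((σ ^ (k + 1)) x) = (σ ^ (k + 1 + 1)) x := by
          rw [pow_succ' σ (k + 1), AlgEquiv.mul_apply]
        rw [h2] at h1
        exact h1.trans h
    have := key m
    rw [hfix] at this
    exact lt_irrefl _ this
  · exact h
  · exfalso
    have key : ∀ k : ℕ, P.valuation x < P.valuation ((σ ^ (k + 1)) x) := by
      intro k
      induction k with
      | zero => simpa using h
      | succ k ih =>
        have h1 := s56q_val_lt_map P hσ ih
        have h2 : σ ((σ ^ (k + 1)) x) = (σ ^ (k + 1 + 1)) x := by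
          rw [pow_succ' σ (k + 1), AlgEquiv.mul_apply]
        rw [h2] at h1
        exact h.trans h1
    have := key m
    rw [hfix] at this
    exact lt_irrefl _ this

end valmap

section wild

variable (P : ValuationSubring Qbar)

theorem s56q_val_natCast_le (m : ℕ) : P.valuation (m : Qbar) ≤ 1 :=
  (ValuationSubring.valuation_le_one_iff P _).2 (natCast_mem P m)

theorem s56q_val_intCast_le (m : ℤ) : P.valuation (m : Qbar) ≤ 1 :=
  (ValuationSubring.valuation_le_one_iff P _).2 (intCast_mem P m)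

/-- Integers prime to `q` are units at a place over `q`. -/
theorem s56q_val_natCast_eq_one {q : ℕ} (hq : q.Prime) (hP : P.LiesOverPrime q) {m : ℕ}
    (hm : ¬ q ∣ m) : P.valuation (m : Qbar) = 1 := by
  refine le_antisymm (s56q_val_natCast_le P m) ?_
  by_contra hlt
  rw [not_le] at hlt
  have hcop : Nat.Coprime q m := (Nat.Prime.coprime_iff_not_dvd hq).2 hm
  have hq1 : P.valuation (q : Qbar) < 1 := (ValuationSubring.mem_nonunits_iff P).1 hP
  have hb : (q : ℤ) * Nat.gcdA q m + (m : ℤ) * Nat.gcdB q m = 1 := by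
    have := Nat.gcd_eq_gcd_ab q m
    rw [hcop.gcd_eq_one] at this
    exact_mod_cast this.symm
  have hb' : (q : Qbar) * ((Nat.gcdA q m : ℤ) : Qbar) + (m : Qbar) * ((Nat.gcdB q m : ℤ) : Qbar) = 1 := by
    exact_mod_cast congrArg (fun z : ℤ => (z : Qbar)) hb
  have h1 : P.valuation ((q : Qbar) * ((Nat.gcdA q m : ℤ) : Qbar)) < 1 := by
    rw [map_mul]
    exact mul_lt_one_of_lt_of_le hq1 (s56q_val_intCast_le P _)
  have h2 : P.valuation ((m : Qbar) * ((Nat.gcdB q m : ℤ) : Qbar)) < 1 := by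
    rw [map_mul]
    exact mul_lt_one_of_lt_of_le hlt (s56q_val_intCast_le P _)
  have h3 := Valuation.map_add_lt _ h1 h2
  rw [hb', map_one] at h3
  exact lt_irrefl _ h3

/-- A wild element whose `m`-th power fixes `x`, `m` a unit at `P`, fixes `x`. -/
theorem s56q_wild_fix {σ : GQ} (hσ : σ • P = P) (S : Set Qbar) (hS : ∀ x ∈ S, σ x ∈ S)
    (hSsub : ∀ x ∈ S, ∀ y ∈ S, x - y ∈ S)
    (hw : ∀ x ∈ S, x ≠ 0 → P.valuation (σ x - x) < P.valuation x)
    {m : ℕ} (hm : P.valuation (m : Qbar) = 1) {x : Qbar} (hxS : x ∈ S)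
    (hx : (σ ^ m) x = x) : σ x = x := by
  by_contra hne
  set y := σ x - x with hy
  have hy0 : y ≠ 0 := sub_ne_zero.2 hne
  have hyS : y ∈ S := hSsub _ (hS x hxS) _ hxS
  have hvy : P.valuation y ≠ 0 := (Valuation.ne_zero_iff _).2 hy0
  have hδy : P.valuation (σ y - y) < P.valuation y := hw y hyS hy0
  have key : ∀ i : ℕ, P.valuation ((σ ^ i) x - x - (i : Qbar) * y) < P.valuation y := by
    intro i
    induction i with
    | zero =>
      simp only [pow_zero, AlgEquiv.one_apply, sub_self, Nat.cast_zero, zero_mul, map_zero]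
      exact zero_lt_iff.2 hvy
    | succ i ih =>
      have h1 : (σ ^ (i + 1)) x - x - ((i + 1 : ℕ) : Qbar) * y
          = σ ((σ ^ i) x - x - (i : Qbar) * y) + (i : Qbar) * (σ y - y) := by
        rw [pow_succ' σ i, AlgEquiv.mul_apply, map_sub, map_sub, map_mul, map_natCast]
        have : σ x = y + x := by rw [hy]; ring
        rw [this]
        push_cast
        ring
      rw [h1]
      have h2 : P.valuation (σ ((σ ^ i) x - x - (i : Qbar) * y)) < P.valuation y := by
        have := s56q_val_lt_map P hσ ih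
        rwa [s56q_val_map P hσ y] at this
      have h3 : P.valuation ((i : Qbar) * (σ y - y)) < P.valuation y := by
        rw [map_mul]
        calc P.valuation (i : Qbar) * P.valuation (σ y - y)
            ≤ 1 * P.valuation (σ y - y) := mul_le_mul_left (s56q_val_natCast_le P i) _
          _ = P.valuation (σ y - y) := one_mul _
          _ < P.valuation y := hδy
      exact Valuation.map_add_lt _ h2 h3
  have hfin := key m
  rw [hx, sub_self, zero_sub, Valuation.map_neg, map_mul, hm, one_mul] at hfin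
  exact lt_irrefl _ hfin

end wild

section theta

variable (P : ValuationSubring Qbar)

theorem s56q_res_eq_iff (x y : P.unitGroup) :
    P.unitGroupToResidueFieldUnits x = P.unitGroupToResidueFieldUnits y ↔
      P.valuation (((x : Qbarˣ) : Qbar) - ((y : Qbarˣ) : Qbar)) < 1 := by
  rw [MonoidHom.eq_iff, P.ker_unitGroupToResidueFieldUnits, Subgroup.mem_comap,
    ValuationSubring.mem_principalUnitGroup_iff]
  have hy : P.valuation ((y : Qbarˣ) : Qbar) = 1 := (P.mem_unitGroup_iff _).1 y.2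
  have hy0 : ((y : Qbarˣ) : Qbar) ≠ 0 := Units.ne_zero _
  have h1 : ((P.unitGroup.subtype (y⁻¹ * x) : Qbarˣ) : Qbar) - 1
      = ((y : Qbarˣ) : Qbar)⁻¹ * (((x : Qbarˣ) : Qbar) - ((y : Qbarˣ) : Qbar)) := by
    simp only [Subgroup.coe_subtype, Subgroup.coe_mul, Subgroup.coe_inv, Units.val_mul,
      Units.val_inv_eq_inv_val]
    field_simp
  rw [h1, map_mul, map_inv₀, hy, inv_one, one_mul]

/-- Elements of the inertia group move units of `P` by principal units. -/
theorem s56q_inertia_unit {σ : GQ} (hσ : σ ∈ P.inertiaSubgroupIn ℚ) {w : Qbar}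
    (hw : P.valuation w = 1) : P.valuation (σ w - w) < 1 := by
  obtain ⟨-, h2⟩ := (Fermat.Agent.S55.tl_mem_inertiaSubgroupIn_iff P σ).1 hσ
  have hwP : w ∈ P := (ValuationSubring.valuation_le_one_iff P w).1 hw.le
  exact (ValuationSubring.mem_nonunits_iff P).1 (h2 w hwP)

theorem s56q_inertia_smul {σ : GQ} (hσ : σ ∈ P.inertiaSubgroupIn ℚ) : σ • P = P :=
  ((Fermat.Agent.S55.tl_mem_inertiaSubgroupIn_iff P σ).1 hσ).1

variable {π : Qbar} (hπ : π ≠ 0)

/-- `z/π` as a unit of `ℚ̄`, for `z ≠ 0`. -/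
noncomputable def s56q_quot {z : Qbar} (hz : z ≠ 0) : Qbarˣ := Units.mk0 (z / π) (div_ne_zero hz hπ)

theorem s56q_quot_mem {σ : GQ} (hσ : σ • P = P) :
    s56q_quot hπ (z := σ π) ((map_ne_zero σ).2 hπ) ∈ P.unitGroup := by
  rw [ValuationSubring.mem_unitGroup_iff]
  show P.valuation (σ π / π) = 1
  rw [map_div₀, s56q_val_map P hσ π]
  exact div_self ((Valuation.ne_zero_iff _).2 hπ)

/-- The tame character attached to `π`, as a function. -/
noncomputable def s56q_thetaFun (σ : ↥(P.inertiaSubgroupIn ℚ)) : (IsLocalRing.ResidueField P)ˣ :=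
  P.unitGroupToResidueFieldUnits
    ⟨s56q_quot hπ (z := (σ : GQ) π) ((map_ne_zero (σ : GQ)).2 hπ),
      s56q_quot_mem P hπ (s56q_inertia_smul P σ.2)⟩

theorem s56q_thetaFun_eq_iff (σ τ : ↥(P.inertiaSubgroupIn ℚ)) :
    s56q_thetaFun P hπ σ = s56q_thetaFun P hπ τ ↔
      P.valuation ((σ : GQ) π / π - (τ : GQ) π / π) < 1 :=
  s56q_res_eq_iff P _ _

theorem s56q_thetaFun_mul (σ τ : ↥(P.inertiaSubgroupIn ℚ)) :
    s56q_thetaFun P hπ (σ * τ) = s56q_thetaFun P hπ σ * s56q_thetaFun P hπ τ := by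
  unfold s56q_thetaFun
  rw [← map_mul, s56q_res_eq_iff]
  show P.valuation (((σ * τ : ↥(P.inertiaSubgroupIn ℚ)) : GQ) π / π
    - ((σ : GQ) π / π) * ((τ : GQ) π / π)) < 1
  set w := (τ : GQ) π / π with hw
  have hwv : P.valuation w = 1 := by
    rw [hw, map_div₀, s56q_val_map P (s56q_inertia_smul P τ.2) π]
    exact div_self ((Valuation.ne_zero_iff _).2 hπ)
  have hτπ : (τ : GQ) π = w * π := by rw [hw]; field_simp
  have h1 : ((σ * τ : ↥(P.inertiaSubgroupIn ℚ)) : GQ) π / π - ((σ : GQ) π / π) * w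
      = ((σ : GQ) π / π) * ((σ : GQ) w - w) := by
    rw [Subgroup.coe_mul, AlgEquiv.mul_apply, hτπ, map_mul]
    field_simp
  rw [h1, map_mul, map_div₀, s56q_val_map P (s56q_inertia_smul P σ.2) π,
    div_self ((Valuation.ne_zero_iff _).2 hπ), one_mul]
  exact s56q_inertia_unit P σ.2 hwv

/-- The tame character `σ ↦ σπ/π mod 𝔪_P` on the inertia group. -/
noncomputable def s56q_theta : ↥(P.inertiaSubgroupIn ℚ) →* (IsLocalRing.ResidueField P)ˣ :=
  MonoidHom.mk' (s56q_thetaFun P hπ) (s56q_thetaFun_mul P hπ)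

theorem s56q_theta_eq_iff (σ τ : ↥(P.inertiaSubgroupIn ℚ)) :
    s56q_theta P hπ σ = s56q_theta P hπ τ ↔
      P.valuation ((σ : GQ) π / π - (τ : GQ) π / π) < 1 :=
  s56q_thetaFun_eq_iff P hπ σ τ

theorem s56q_theta_eq_one_iff (σ : ↥(P.inertiaSubgroupIn ℚ)) :
    s56q_theta P hπ σ = 1 ↔ P.valuation ((σ : GQ) π / π - 1) < 1 := by
  rw [← map_one (s56q_theta P hπ), s56q_theta_eq_iff]
  simp only [OneMemClass.coe_one, AlgEquiv.one_apply, div_self hπ]

end theta

section cyc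

variable (P : ValuationSubring Qbar) {π : Qbar} (hπ : π ≠ 0)

theorem s56q_theta_eq_of_apply_eq (σ τ : ↥(P.inertiaSubgroupIn ℚ))
    (h : (σ : GQ) π = (τ : GQ) π) : s56q_theta P hπ σ = s56q_theta P hπ τ := by
  rw [s56q_theta_eq_iff, h, sub_self, map_zero]
  exact zero_lt_one

theorem s56q_theta_range_finite : (Set.range (s56q_theta P hπ)).Finite := by
  have hx : IsIntegral ℚ π := (AlgebraicClosure.isAlgebraic ℚ).isIntegral.isIntegral π
  have hp : minpoly ℚ π ≠ 0 := minpoly.ne_zero hx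
  have hfin : ((minpoly ℚ π).rootSet Qbar).Finite := Polynomial.rootSet_finite _ _
  classical
  let g : Qbar → (IsLocalRing.ResidueField P)ˣ := fun z =>
    if h : ∃ σ : ↥(P.inertiaSubgroupIn ℚ), (σ : GQ) π = z then s56q_theta P hπ h.choose else 1
  refine (hfin.image g).subset ?_
  rintro _ ⟨σ, rfl⟩
  refine ⟨(σ : GQ) π, ?_, ?_⟩
  · rw [Polynomial.mem_rootSet]
    refine ⟨hp, ?_⟩
    rw [Polynomial.aeval_algEquiv, AlgHom.comp_apply]
    simp [minpoly.aeval]
  · have h : ∃ σ' : ↥(P.inertiaSubgroupIn ℚ), (σ' : GQ) π = (σ : GQ) π := ⟨σ, rfl⟩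
    show (if h : ∃ σ' : ↥(P.inertiaSubgroupIn ℚ), (σ' : GQ) π = (σ : GQ) π
      then s56q_theta P hπ h.choose else 1) = _
    rw [dif_pos h]
    exact s56q_theta_eq_of_apply_eq P hπ _ _ h.choose_spec

/-- The image of the tame character is generated by one element. -/
theorem s56q_theta_cyclic : ∃ τ : ↥(P.inertiaSubgroupIn ℚ), ∀ σ : ↥(P.inertiaSubgroupIn ℚ),
    ∃ n : ℕ, s56q_theta P hπ σ = s56q_theta P hπ τ ^ n := by
  have hfin : Finite (s56q_theta P hπ).range := by
    have := s56q_theta_range_finite P hπ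
    rw [← MonoidHom.coe_range] at this
    exact this.to_subtype
  obtain ⟨g, hg⟩ := IsCyclic.exists_monoid_generator (α := (s56q_theta P hπ).range)
  obtain ⟨τ, hτ⟩ := g.2
  refine ⟨τ, fun σ => ?_⟩
  obtain ⟨n, hn⟩ := hg ⟨s56q_theta P hπ σ, σ, rfl⟩
  refine ⟨n, ?_⟩
  have := congrArg Subtype.val hn
  simp only [SubmonoidClass.coe_pow] at this
  rw [hτ, ← this]

end cyc

section unif

variable (P : ValuationSubring Qbar)

/-- In a vanishing finite sum with a nonzero term, the maximal valuation is attained twice. -/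
theorem s56q_exists_eq_val {ι : Type*} [DecidableEq ι] (s : Finset ι) (g : ι → Qbar)
    (hsum : ∑ i ∈ s, g i = 0) {i0 : ι} (hi0 : i0 ∈ s) (hg0 : g i0 ≠ 0) :
    ∃ j ∈ s, ∃ j' ∈ s, j ≠ j' ∧ g j ≠ 0 ∧ P.valuation (g j) = P.valuation (g j') := by
  obtain ⟨j, hj, hmax⟩ := Finset.exists_max_image s (fun i => P.valuation (g i)) ⟨i0, hi0⟩
  have hvj : P.valuation (g j) ≠ 0 := by
    have h1 : P.valuation (g i0) ≠ 0 := (Valuation.ne_zero_iff _).2 hg0
    have h2 := hmax i0 hi0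
    intro h0
    rw [h0] at h2
    exact h1 (le_antisymm h2 zero_le)
  have hgj : g j ≠ 0 := (Valuation.ne_zero_iff _).1 hvj
  by_contra hcon
  push Not at hcon
  have hlt : ∀ i ∈ s.erase j, P.valuation (g i) < P.valuation (g j) := by
    intro i hi
    have hi' := Finset.mem_erase.1 hi
    exact lt_of_le_of_ne (hmax i hi'.2) (fun h => hcon j hj i hi'.2 hi'.1.symm hgj h.symm)
  have h1 : P.valuation (∑ i ∈ s.erase j, g i) < P.valuation (g j) :=
    Valuation.map_sum_lt _ hvj hlt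
  have h2 : ∑ i ∈ s.erase j, g i = - g j := by
    have := Finset.add_sum_erase s g hj
    rw [hsum] at this
    exact eq_neg_of_add_eq_zero_right this
  rw [h2, Valuation.map_neg] at h1
  exact lt_irrefl _ h1

variable {q : ℕ} (hq : q.Prime) (hP : P.LiesOverPrime q)

include hq hP in
theorem s56q_val_nat (n : ℕ) (hn : n ≠ 0) :
    ∃ a : ℤ, P.valuation (n : Qbar) = P.valuation (q : Qbar) ^ a := by
  obtain ⟨e, n', hn', rfl⟩ := Nat.exists_eq_pow_mul_and_not_dvd hn q hq.ne_one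
  refine ⟨e, ?_⟩
  push_cast
  rw [map_mul, map_pow, s56q_val_natCast_eq_one P hq hP hn', mul_one, zpow_natCast]

include hq hP in
theorem s56q_val_rat (r : ℚ) (hr : r ≠ 0) :
    ∃ a : ℤ, P.valuation (r : Qbar) = P.valuation (q : Qbar) ^ a := by
  have hq0 : P.valuation (q : Qbar) ≠ 0 :=
    (Valuation.ne_zero_iff _).2 (Nat.cast_ne_zero.2 hq.ne_zero)
  obtain ⟨a, ha⟩ := s56q_val_nat P hq hP r.num.natAbs (Int.natAbs_ne_zero.2 (Rat.num_ne_zero.2 hr))
  obtain ⟨b, hb⟩ := s56q_val_nat P hq hP r.den r.den_ne_zero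
  refine ⟨a - b, ?_⟩
  have h1 : P.valuation ((r.num : ℤ) : Qbar) = P.valuation ((r.num.natAbs : ℕ) : Qbar) := by
    rcases Int.natAbs_eq r.num with h | h
    · conv_lhs => rw [h]
      simp
    · conv_lhs => rw [h]
      simp
  rw [Rat.cast_def, map_div₀, h1, ha, hb, zpow_sub₀ hq0]

end unif

section unif2

variable (P : ValuationSubring Qbar) {q : ℕ} (hq : q.Prime) (hP : P.LiesOverPrime q)

include hq hP in
/-- Some power `x ^ n`, `1 ≤ n ≤ deg x`, has the valuation of a power of `q`. -/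
theorem s56q_val_pow_alg (x : Qbar) (hx : x ≠ 0) :
    ∃ n : ℕ, 0 < n ∧ n ≤ (minpoly ℚ x).natDegree ∧
      ∃ a : ℤ, P.valuation x ^ n = P.valuation (q : Qbar) ^ a := by
  have hxi : IsIntegral ℚ x := (AlgebraicClosure.isAlgebraic ℚ).isIntegral.isIntegral x
  have hvx : P.valuation x ≠ 0 := (Valuation.ne_zero_iff _).2 hx
  set f := minpoly ℚ x with hf
  let g : ℕ → Qbar := fun i => algebraMap ℚ Qbar (f.coeff i) * x ^ i
  have hsum : ∑ i ∈ Finset.range (f.natDegree + 1), g i = 0 := by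
    have h1 := Polynomial.aeval_eq_sum_range (p := f) x
    rw [hf, minpoly.aeval] at h1
    rw [h1]
    refine Finset.sum_congr rfl fun i _ => ?_
    rw [Algebra.smul_def]
  have hlead : g f.natDegree ≠ 0 := by
    show algebraMap ℚ Qbar (f.coeff f.natDegree) * x ^ f.natDegree ≠ 0
    rw [Polynomial.coeff_natDegree, (minpoly.monic hxi).leadingCoeff, map_one, one_mul]
    exact pow_ne_zero _ hx
  obtain ⟨j, hj, j', hj', hne, hgj, hv⟩ := s56q_exists_eq_val P _ g hsum
    (Finset.mem_range.2 (Nat.lt_succ_self _)) hlead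
  have hgj' : g j' ≠ 0 := by
    rw [← Valuation.ne_zero_iff P.valuation, ← hv]
    exact (Valuation.ne_zero_iff _).2 hgj
  -- symmetric core
  have core : ∀ a b : ℕ, a < b → b ≤ f.natDegree → g a ≠ 0 → g b ≠ 0 →
      P.valuation (g a) = P.valuation (g b) →
      ∃ n : ℕ, 0 < n ∧ n ≤ f.natDegree ∧
        ∃ e : ℤ, P.valuation x ^ n = P.valuation (q : Qbar) ^ e := by
    intro a b hab hb hga hgb hvab
    have hca : f.coeff a ≠ 0 := by
      intro h0
      apply hga
      show algebraMap ℚ Qbar (f.coeff a) * x ^ a = 0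
      rw [h0, map_zero, zero_mul]
    have hcb : f.coeff b ≠ 0 := by
      intro h0
      apply hgb
      show algebraMap ℚ Qbar (f.coeff b) * x ^ b = 0
      rw [h0, map_zero, zero_mul]
    refine ⟨b - a, Nat.sub_pos_of_lt hab, (Nat.sub_le _ _).trans hb, ?_⟩
    obtain ⟨e, he⟩ := s56q_val_rat P hq hP (f.coeff a / f.coeff b) (div_ne_zero hca hcb)
    refine ⟨e, ?_⟩
    rw [← he]
    have h1 : P.valuation (algebraMap ℚ Qbar (f.coeff a)) * P.valuation x ^ a
        = P.valuation (algebraMap ℚ Qbar (f.coeff b)) * P.valuation x ^ b := by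
      have := hvab
      simp only [g, map_mul, map_pow] at this
      exact this
    have hpow : P.valuation x ^ b = P.valuation x ^ a * P.valuation x ^ (b - a) := by
      rw [← pow_add]
      congr 1
      omega
    have hvcb : P.valuation (algebraMap ℚ Qbar (f.coeff b)) ≠ 0 :=
      (Valuation.ne_zero_iff _).2 ((map_ne_zero _).2 hcb)
    rw [hpow] at h1
    have hxa : P.valuation x ^ a ≠ 0 := pow_ne_zero _ hvx
    have h2 : P.valuation (algebraMap ℚ Qbar (f.coeff a))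
        = P.valuation (algebraMap ℚ Qbar (f.coeff b)) * P.valuation x ^ (b - a) := by
      have h3 : P.valuation (algebraMap ℚ Qbar (f.coeff a)) * P.valuation x ^ a
          = (P.valuation (algebraMap ℚ Qbar (f.coeff b)) * P.valuation x ^ (b - a))
            * P.valuation x ^ a := by
        rw [h1, mul_comm (P.valuation x ^ a), mul_assoc]
      exact mul_right_cancel₀ hxa h3
    have h4 : ((f.coeff a / f.coeff b : ℚ) : Qbar)
        = algebraMap ℚ Qbar (f.coeff a) / algebraMap ℚ Qbar (f.coeff b) := by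
      rw [eq_ratCast, eq_ratCast, Rat.cast_div]
    rw [h4, map_div₀, h2, mul_comm, mul_div_assoc, div_self hvcb, mul_one]
  have hjle : j ≤ f.natDegree := Nat.lt_succ_iff.1 (Finset.mem_range.1 hj)
  have hj'le : j' ≤ f.natDegree := Nat.lt_succ_iff.1 (Finset.mem_range.1 hj')
  rcases lt_or_gt_of_ne hne with h | h
  · exact core j j' h hj'le hgj hgj' hv
  · exact core j' j h hjle hgj' hgj hv.symm

end unif2

section unif3

variable (P : ValuationSubring Qbar) {q : ℕ} (hq : q.Prime) (hP : P.LiesOverPrime q)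

include hq hP in
theorem s56q_val_pow_factorial (L : IntermediateField ℚ Qbar) [FiniteDimensional ℚ L]
    (x : Qbar) (hxL : x ∈ L) (hx : x ≠ 0) :
    ∃ a : ℤ, P.valuation x ^ (Module.finrank ℚ L).factorial = P.valuation (q : Qbar) ^ a := by
  obtain ⟨n, hn0, hnle, a, ha⟩ := s56q_val_pow_alg P hq hP x hx
  have hdeg : (minpoly ℚ x).natDegree ≤ Module.finrank ℚ L := by
    have h1 := minpoly.natDegree_le (A := ℚ) (⟨x, hxL⟩ : L)
    have h2 : minpoly ℚ (⟨x, hxL⟩ : L) = minpoly ℚ x := IntermediateField.minpoly_eq (⟨x, hxL⟩ : L)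
    rwa [h2] at h1
  obtain ⟨c, hc⟩ := Nat.dvd_factorial hn0 (hnle.trans hdeg)
  refine ⟨a * c, ?_⟩
  rw [hc, pow_mul, ha, zpow_mul, zpow_natCast]

include hq hP in
/-- Every finite-dimensional subfield of `ℚ̄` has a uniformiser at `P`. -/
theorem s56q_exists_unif (L : IntermediateField ℚ Qbar) [FiniteDimensional ℚ L] :
    ∃ π ∈ L, π ≠ 0 ∧ ∀ x ∈ L, x ≠ 0 → ∃ k : ℤ, P.valuation x = P.valuation π ^ k := by
  set N := (Module.finrank ℚ L).factorial with hN
  have hN0 : N ≠ 0 := Nat.factorial_ne_zero _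
  have hq0 : (q : Qbar) ≠ 0 := Nat.cast_ne_zero.2 hq.ne_zero
  have hvq0 : P.valuation (q : Qbar) ≠ 0 := (Valuation.ne_zero_iff _).2 hq0
  classical
  have hex : ∃ d : ℕ, 0 < d ∧ ∃ x ∈ L, x ≠ 0 ∧
      P.valuation x ^ N = P.valuation (q : Qbar) ^ (d : ℤ) :=
    ⟨N, Nat.pos_of_ne_zero hN0, (q : Qbar), natCast_mem L q, hq0, (zpow_natCast _ _).symm⟩
  obtain ⟨hd0, π, hπL, hπ0, hπ⟩ := Nat.find_spec hex
  set d := Nat.find hex with hd
  have hvπ0 : P.valuation π ≠ 0 := (Valuation.ne_zero_iff _).2 hπ0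
  refine ⟨π, hπL, hπ0, fun x hxL hx0 => ?_⟩
  obtain ⟨a, ha⟩ := s56q_val_pow_factorial P hq hP L x hxL hx0
  rw [← hN] at ha
  set k := a / (d : ℤ) with hk
  set r := a % (d : ℤ) with hr
  have hdpos : (0 : ℤ) < d := by exact_mod_cast hd0
  have hr0 : 0 ≤ r := Int.emod_nonneg _ hdpos.ne'
  have hrd : r < d := Int.emod_lt_of_pos _ hdpos
  -- the element x / π^k
  have hx'L : x * π ^ (-k) ∈ L := mul_mem hxL (zpow_mem hπL _)
  have hx'0 : x * π ^ (-k) ≠ 0 := mul_ne_zero hx0 (zpow_ne_zero _ hπ0)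
  have hval : P.valuation (x * π ^ (-k)) ^ N = P.valuation (q : Qbar) ^ r := by
    rw [map_mul, map_zpow₀, mul_pow, ha]
    have h1 : (P.valuation π ^ (-k)) ^ N = (P.valuation π ^ N) ^ (-k) := by
      rw [← zpow_natCast, ← zpow_mul, mul_comm, zpow_mul, zpow_natCast]
    rw [h1, hπ, ← zpow_mul, ← zpow_add₀ hvq0]
    congr 1
    rw [hr, Int.emod_def]
    ring
  have hr_eq : r = 0 := by
    by_contra hne
    have hrpos : 0 < r := lt_of_le_of_ne hr0 (Ne.symm hne)
    have hmem : 0 < r.toNat ∧ ∃ x ∈ L, x ≠ 0 ∧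
        P.valuation x ^ N = P.valuation (q : Qbar) ^ ((r.toNat : ℕ) : ℤ) := by
      refine ⟨by omega, x * π ^ (-k), hx'L, hx'0, ?_⟩
      rw [hval, Int.toNat_of_nonneg hr0]
    have hmin := Nat.find_min' hex hmem
    have : (r.toNat : ℤ) < d := by rw [Int.toNat_of_nonneg hr0]; exact hrd
    omega
  rw [hr_eq, zpow_zero] at hval
  have hone : P.valuation (x * π ^ (-k)) = 1 := (pow_eq_one_iff_of_nonneg zero_le hN0).1 hval
  refine ⟨k, ?_⟩
  rw [map_mul, map_zpow₀, zpow_neg] at hone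
  have hk0 : P.valuation π ^ k ≠ 0 := zpow_ne_zero _ hvπ0
  calc P.valuation x = P.valuation x * (P.valuation π ^ k)⁻¹ * P.valuation π ^ k := by
        rw [mul_assoc, inv_mul_cancel₀ hk0, mul_one]
    _ = P.valuation π ^ k := by rw [hone, one_mul]

end unif3

section main

variable (P : ValuationSubring Qbar)

/-- The homomorphism `z ↦ σ z / z` on `ℚ̄ˣ`. -/
noncomputable def s56q_quotHom (σ : GQ) : Qbarˣ →* Qbarˣ :=
  Units.map ((σ : Qbar →+* Qbar) : Qbar →* Qbar) / MonoidHom.id Qbarˣ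

theorem s56q_quotHom_val (σ : GQ) (z : Qbarˣ) :
    ((s56q_quotHom σ z : Qbarˣ) : Qbar) = σ (z : Qbar) / (z : Qbar) := by
  simp [s56q_quotHom, MonoidHom.div_apply, div_eq_mul_inv]

/-- `σ` is wild at `z`: `σz/z` is a principal unit. -/
theorem s56q_quotHom_mem_iff (σ : GQ) (z : Qbarˣ) :
    s56q_quotHom σ z ∈ P.principalUnitGroup ↔
      P.valuation (σ (z : Qbar) - (z : Qbar)) < P.valuation (z : Qbar) := by
  rw [ValuationSubring.mem_principalUnitGroup_iff, s56q_quotHom_val]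
  have hz0 : (z : Qbar) ≠ 0 := z.ne_zero
  have hvz : P.valuation (z : Qbar) ≠ 0 := (Valuation.ne_zero_iff _).2 hz0
  have h1 : σ (z : Qbar) / (z : Qbar) - 1 = (σ (z : Qbar) - (z : Qbar)) / (z : Qbar) := by
    field_simp
  rw [h1, map_div₀, div_lt_one₀ (zero_lt_iff.2 hvz)]

variable {q : ℕ} (hq : q.Prime) (hP : P.LiesOverPrime q)

/-- An inertia element with trivial tame character at a uniformiser `π` of `L` is wild on `L`. -/
theorem s56q_wild_of_theta {L : IntermediateField ℚ Qbar} {π : Qbar} (hπ : π ≠ 0)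
    (hunif : ∀ x ∈ L, x ≠ 0 → ∃ k : ℤ, P.valuation x = P.valuation π ^ k)
    (σ : ↥(P.inertiaSubgroupIn ℚ)) (hθ : s56q_theta P hπ σ = 1) (x : Qbar) (hxL : x ∈ L)
    (hx : x ≠ 0) : P.valuation ((σ : GQ) x - x) < P.valuation x := by
  obtain ⟨k, hk⟩ := hunif x hxL hx
  have hvπ0 : P.valuation π ≠ 0 := (Valuation.ne_zero_iff _).2 hπ
  -- the unit u = x / π^k
  set u : Qbar := x * π ^ (-k) with hu
  have hu0 : u ≠ 0 := mul_ne_zero hx (zpow_ne_zero _ hπ)
  have hvu : P.valuation u = 1 := by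
    rw [hu, map_mul, map_zpow₀, hk, zpow_neg, mul_inv_cancel₀ (zpow_ne_zero _ hvπ0)]
  have hxu : Units.mk0 x hx = Units.mk0 u hu0 * (Units.mk0 π hπ) ^ k := by
    ext
    simp only [Units.val_mk0, Units.val_mul, Units.val_zpow_eq_zpow_val, hu]
    rw [mul_assoc, ← zpow_add₀ hπ]
    simp
  have h1 : s56q_quotHom (σ : GQ) (Units.mk0 u hu0) ∈ P.principalUnitGroup := by
    rw [s56q_quotHom_mem_iff P, Units.val_mk0, hvu]
    exact s56q_inertia_unit P σ.2 hvu
  have h2 : s56q_quotHom (σ : GQ) (Units.mk0 π hπ) ∈ P.principalUnitGroup := by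
    rw [ValuationSubring.mem_principalUnitGroup_iff, s56q_quotHom_val, Units.val_mk0]
    exact (s56q_theta_eq_one_iff P hπ σ).1 hθ
  have h3 : s56q_quotHom (σ : GQ) (Units.mk0 x hx) ∈ P.principalUnitGroup := by
    rw [hxu, map_mul, map_zpow]
    exact mul_mem h1 (zpow_mem h2 k)
  have := (s56q_quotHom_mem_iff P _ _).1 h3
  simpa using this

end main

section main2

variable (P : ValuationSubring Qbar) {q : ℕ} (hq : q.Prime) (hP : P.LiesOverPrime q)

local instance s56q_qbarIsAlgebraic : Algebra.IsAlgebraic ℚ (AlgebraicClosure ℚ) :=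
  AlgebraicClosure.isAlgebraic ℚ

local instance s56q_qbarIsAlgClosure : IsAlgClosure ℚ (AlgebraicClosure ℚ) :=
  ⟨inferInstance, inferInstance⟩

local instance s56q_qbarNormal : Normal ℚ (AlgebraicClosure ℚ) :=
  IsAlgClosure.normal ℚ (AlgebraicClosure ℚ)

theorem s56q_exists_pow_mem_fixing (L : IntermediateField ℚ Qbar) [FiniteDimensional ℚ L]
    [Normal ℚ L] (σ : GQ) : ∃ n : ℕ, 0 < n ∧ σ ^ n ∈ L.fixingSubgroup := by
  have : Finite (L ≃ₐ[ℚ] L) := inferInstance
  set r := AlgEquiv.restrictNormalHom (F := ℚ) (K₁ := AlgebraicClosure ℚ) L with hr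
  refine ⟨orderOf (r σ), orderOf_pos _, ?_⟩
  rw [IntermediateField.mem_fixingSubgroup_iff]
  intro x hx
  have h1 : r (σ ^ orderOf (r σ)) = 1 := by rw [map_pow, pow_orderOf_eq_one]
  have h2 := AlgEquiv.restrictNormal_commutes (σ ^ orderOf (r σ)) L ⟨x, hx⟩
  have h3 : (σ ^ orderOf (r σ)).restrictNormal L = 1 := h1
  rw [h3] at h2
  exact h2.symm

theorem s56q_map_mem_of_normal (L : IntermediateField ℚ Qbar) [Normal ℚ L] (σ : GQ) {x : Qbar}
    (hx : x ∈ L) : σ x ∈ L := by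
  have h2 := AlgEquiv.restrictNormal_commutes σ L ⟨x, hx⟩
  have h3 : σ x = ((σ.restrictNormal L) ⟨x, hx⟩ : L) := h2.symm
  rw [h3]
  exact SetLike.coe_mem _

include hq hP in
/-- Inertia elements with trivial tame character are killed by every finite-level homomorphism
whose values on inertia have order prime to `q`. -/
theorem s56q_kill {M : Type*} [Monoid M] (f : GQ →* M) (L : IntermediateField ℚ Qbar)
    [FiniteDimensional ℚ L] [Normal ℚ L] (hL : ∀ σ ∈ L.fixingSubgroup, f σ = 1)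
    (hord : ∀ σ ∈ P.inertiaSubgroupIn ℚ, ∃ m : ℕ, 0 < m ∧ ¬ q ∣ m ∧ f σ ^ m = 1)
    {π : Qbar} (hπ : π ≠ 0)
    (hunif : ∀ x ∈ L, x ≠ 0 → ∃ k : ℤ, P.valuation x = P.valuation π ^ k)
    (σ : ↥(P.inertiaSubgroupIn ℚ)) (hθ : s56q_theta P hπ σ = 1) : f (σ : GQ) = 1 := by
  obtain ⟨n, hn0, hn⟩ := s56q_exists_pow_mem_fixing L (σ : GQ)
  obtain ⟨a, m, hm, rfl⟩ := Nat.exists_eq_pow_mul_and_not_dvd hn0.ne' q hq.ne_one
  -- σ' = σ^(q^a)
  set σ' : ↥(P.inertiaSubgroupIn ℚ) := σ ^ (q ^ a) with hσ'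
  have hθ' : s56q_theta P hπ σ' = 1 := by rw [hσ', map_pow, hθ, one_pow]
  have hσ'P : (σ' : GQ) • P = P := s56q_inertia_smul P σ'.2
  have hwild := s56q_wild_of_theta P hπ hunif σ' hθ'
  have hfix : ∀ x ∈ L, (σ' : GQ) x = x := by
    intro x hxL
    refine s56q_wild_fix P hσ'P (L : Set Qbar) (fun y hy => s56q_map_mem_of_normal L _ hy)
      (fun y hy z hz => sub_mem hy hz) (fun y hy hy0 => hwild y hy hy0)
      (s56q_val_natCast_eq_one P hq hP hm) hxL ?_
    have h1 : (σ' : GQ) ^ m = (σ : GQ) ^ (q ^ a * m) := by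
      rw [hσ', SubgroupClass.coe_pow, ← pow_mul]
    rw [h1]
    exact (IntermediateField.mem_fixingSubgroup_iff _ _).1 hn x hxL
  have h1 : f (σ' : GQ) = 1 :=
    hL _ ((IntermediateField.mem_fixingSubgroup_iff _ _).2 hfix)
  have h2 : f (σ : GQ) ^ (q ^ a) = 1 := by
    rw [← map_pow, ← h1, hσ', SubgroupClass.coe_pow]
  obtain ⟨m', -, hm', h3⟩ := hord (σ : GQ) σ.2
  have hcop : Nat.Coprime (q ^ a) m' :=
    Nat.Coprime.pow_left _ ((Nat.Prime.coprime_iff_not_dvd hq).2 hm')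
  have h4 := pow_gcd_eq_one.2 ⟨h2, h3⟩
  rwa [hcop.gcd_eq_one, pow_one] at h4

include hq hP in
/-- **[TAME]** For a finite-level homomorphism `f` on `G_ℚ` whose values on the inertia group
`I_P` (`P | q`) have order prime to `q`, the image `f(I_P)` is generated by one `f τ`. -/
theorem s56q_tame_cyclic {M : Type*} [Monoid M] (f : GQ →* M) (L₀ : IntermediateField ℚ Qbar)
    [FiniteDimensional ℚ L₀] (hL₀ : ∀ σ ∈ L₀.fixingSubgroup, f σ = 1)
    (hord : ∀ σ ∈ P.inertiaSubgroupIn ℚ, ∃ m : ℕ, 0 < m ∧ ¬ q ∣ m ∧ f σ ^ m = 1) :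
    ∃ τ ∈ P.inertiaSubgroupIn ℚ, ∀ σ ∈ P.inertiaSubgroupIn ℚ, ∃ n : ℕ, f σ = f τ ^ n := by
  set L := IntermediateField.normalClosure ℚ L₀ Qbar with hLdef
  have hLn : Normal ℚ L := normalClosure.normal ℚ L₀ Qbar
  have hle : L₀ ≤ L := IntermediateField.le_normalClosure L₀
  have hL : ∀ σ ∈ L.fixingSubgroup, f σ = 1 := fun σ hσ =>
    hL₀ σ (IntermediateField.fixingSubgroup_antitone hle hσ)
  obtain ⟨π, -, hπ, hunif⟩ := s56q_exists_unif P hq hP L
  have hkill := s56q_kill P hq hP f L hL hord hπ hunif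
  have heq : ∀ σ τ : ↥(P.inertiaSubgroupIn ℚ), s56q_theta P hπ σ = s56q_theta P hπ τ →
      f (σ : GQ) = f (τ : GQ) := by
    intro σ τ h
    have h1 : s56q_theta P hπ (σ * τ⁻¹) = 1 := by
      rw [map_mul, map_inv, h, mul_inv_cancel]
    have h2 := hkill (σ * τ⁻¹) h1
    have h3 : (σ : GQ) = ((σ * τ⁻¹ : ↥(P.inertiaSubgroupIn ℚ)) : GQ) * (τ : GQ) := by
      rw [← Subgroup.coe_mul, inv_mul_cancel_right]
    rw [h3, map_mul, h2, one_mul]
  obtain ⟨τ, hτ⟩ := s56q_theta_cyclic P hπ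
  refine ⟨τ, τ.2, fun σ hσ => ?_⟩
  obtain ⟨n, hn⟩ := hτ ⟨σ, hσ⟩
  refine ⟨n, ?_⟩
  rw [← map_pow] at hn
  have := heq ⟨σ, hσ⟩ (τ ^ n) hn
  rw [SubgroupClass.coe_pow, map_pow] at this
  exact this

end main2

end Fermat.Agent.S56
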