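import Mathlib
import Fermat.Agent.S56.LocQ.Tame

/-!
# S56, node [LOC-q]: deformations to `k[ε]` that are unipotent on inertia at `q ≠ p` have
unramified cocycle class (prefix `s56q_`)

Matrix level.  `B : G_ℚ →* M₂(k)` a finite-level homomorphism, `c : G_ℚ → M₂(k)` a finite-level
cocycle for the adjoint action (`c (σ τ) = c σ + B σ * c τ * B σ⁻¹`), so that
`σ ↦ B σ + ε c σ B σ` is a deformation to `k[ε]`.  If on the inertia group `I_P` (`P | q`,
`q ≠ p = char k`, `p` odd) the deformation has characteristic polynomial `(X - 1)²`, i.e.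
`tr B σ = 2`, `det B σ = 1`, `tr c σ = 0`, `tr (c σ B σ) = 0`, and `B` is ramified at `P`, then
`c` restricted to `I_P` is the coboundary of a trace-zero matrix `m` (`s56q_unip_core`).

Ingredients: [TAME] (`s56q_tame_cyclic`: the image of `I_P` in the finite `p`-group is cyclic)
and the `2 × 2` linear algebra `s56q_solve`.
-/

set_option autoImplicit false

open scoped Pointwise
open Matrix

namespace Fermat.Agent.S56

local notation "Qbar" => AlgebraicClosure ℚ
local notation "GQ" => (AlgebraicClosure ℚ ≃ₐ[ℚ] AlgebraicClosure ℚ)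

section linalg

variable {k : Type} [Field k]

/-- A nonzero nilpotent `2 × 2` matrix is conjugate to the elementary matrix `e₁₂`. -/
theorem s56q_nilp_conj (N : Matrix (Fin 2) (Fin 2) k) (hN0 : N ≠ 0) (hN2 : N * N = 0) :
    ∃ g g' : Matrix (Fin 2) (Fin 2) k, g * g' = 1 ∧ g' * g = 1 ∧ g' * N * g = !![0, 1; 0, 0] := by
  obtain ⟨a, b, c, d, rfl⟩ : ∃ a b c d, N = !![a, b; c, d] :=
    ⟨N 0 0, N 0 1, N 1 0, N 1 1, Matrix.eta_fin_two N⟩
  rw [Matrix.mul_fin_two, ← Matrix.ext_iff] at hN2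
  simp only [Fin.forall_fin_two, Matrix.of_apply, Matrix.cons_val', Matrix.cons_val_zero,
    Matrix.cons_val_one, Matrix.cons_val_fin_one, Matrix.zero_apply] at hN2
  obtain ⟨⟨e00, e01⟩, e10, e11⟩ := hN2
  by_cases hc : c = 0
  · subst hc
    have ha : a = 0 := by
      have : a * a = 0 := by linear_combination e00
      exact mul_self_eq_zero.1 this
    have hd : d = 0 := by
      have : d * d = 0 := by linear_combination e11
      exact mul_self_eq_zero.1 this
    subst ha hd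
    have hb : b ≠ 0 := by
      rintro rfl
      apply hN0
      ext i j
      fin_cases i <;> fin_cases j <;> simp
    refine ⟨!![b, 0; 0, 1], !![b⁻¹, 0; 0, 1], ?_, ?_, ?_⟩
    · rw [Matrix.mul_fin_two, Matrix.one_fin_two]
      simp [hb]
    · rw [Matrix.mul_fin_two, Matrix.one_fin_two]
      simp [hb]
    · rw [Matrix.mul_fin_two, Matrix.mul_fin_two]
      simp [hb]
  · have hsum : a + d = 0 := by
      have : c * (a + d) = 0 := by linear_combination e10
      exact (mul_eq_zero.1 this).resolve_left hc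
    have hd : d = - a := by linear_combination hsum
    subst hd
    refine ⟨!![a, 1; c, 0], !![0, c⁻¹; 1, - a * c⁻¹], ?_, ?_, ?_⟩
    · rw [Matrix.mul_fin_two, Matrix.one_fin_two]
      simp [hc]
    · rw [Matrix.mul_fin_two, Matrix.one_fin_two]
      simp [hc]
    · rw [Matrix.mul_fin_two, Matrix.mul_fin_two]
      simp only [zero_mul, zero_add, mul_zero, add_zero, mul_one, one_mul]
      have h1 : c⁻¹ * c = 1 := inv_mul_cancel₀ hc
      have g00 : c⁻¹ * c * a + c⁻¹ * -a * c = 0 := by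
        rw [mul_assoc c⁻¹ (-a) c, mul_comm (-a) c, ← mul_assoc, h1]; ring
      have g01 : a + -a * c⁻¹ * c = 0 := by
        rw [mul_assoc, h1]; ring
      have g10 : (a + -a * c⁻¹ * c) * a + (b + -a * c⁻¹ * -a) * c = 0 := by
        rw [g01]
        have : (b + -a * c⁻¹ * -a) * c = b * c + a * a * (c⁻¹ * c) := by ring
        rw [this, h1]
        linear_combination e00
      rw [g00, g10, g01, h1]

/-- Cayley–Hamilton for `2 × 2` matrices. -/
theorem s56q_ch2 (B : Matrix (Fin 2) (Fin 2) k) :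
    B * B - B.trace • B + B.det • (1 : Matrix (Fin 2) (Fin 2) k) = 0 := by
  ext i j
  fin_cases i <;> fin_cases j <;>
  simp [Matrix.mul_apply, Fin.sum_univ_two, Matrix.trace_fin_two, Matrix.det_fin_two] <;> ring

/-- Polarised Cayley–Hamilton for `2 × 2` matrices. -/
theorem s56q_ch2_pol (B c : Matrix (Fin 2) (Fin 2) k) :
    B * c * B + c * (B * B) - B.trace • (c * B) - (c * B).trace • B
      + (B.det * c.trace) • (1 : Matrix (Fin 2) (Fin 2) k) = 0 := by
  ext i j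
  fin_cases i <;> fin_cases j <;>
  simp [Matrix.mul_apply, Fin.sum_univ_two, Matrix.trace_fin_two, Matrix.det_fin_two] <;> ring

theorem s56q_conj_mul {g g' : Matrix (Fin 2) (Fin 2) k} (hg'g : g' * g = 1)
    (X Y : Matrix (Fin 2) (Fin 2) k) : g * X * g' * (g * Y * g') = g * (X * Y) * g' := by
  calc g * X * g' * (g * Y * g') = g * X * (g' * g) * Y * g' := by noncomm_ring
    _ = g * (X * Y) * g' := by rw [hg'g]; noncomm_ring

/-- Solving the coboundary equation for a non-trivial unipotent `B`. -/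
theorem s56q_solve (h2 : (2 : k) ≠ 0) (B B' c : Matrix (Fin 2) (Fin 2) k) (hBB' : B * B' = 1)
    (htr : B.trace = 2) (hdet : B.det = 1) (hB1 : B ≠ 1)
    (hc0 : c.trace = 0) (hcB : (c * B).trace = 0) :
    ∃ m : Matrix (Fin 2) (Fin 2) k, m.trace = 0 ∧ c = B * m * B' - m := by
  obtain ⟨N, hN⟩ : ∃ N, N = B - 1 := ⟨_, rfl⟩
  have hBN : B = 1 + N := by rw [hN]; abel
  have hN2 : N * N = 0 := by
    have h := s56q_ch2 B
    rw [htr, hdet, one_smul] at h
    have h1 : N * N = B * B - (2 : k) • B + 1 := by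
      rw [hN, two_smul]; noncomm_ring
    rw [h1, h]
  have hN0 : N ≠ 0 := fun h0 => hB1 (by rw [hBN, h0, add_zero])
  obtain ⟨g, g', hgg', hg'g, hconj⟩ := s56q_nilp_conj N hN0 hN2
  obtain ⟨E, hE⟩ : ∃ E : Matrix (Fin 2) (Fin 2) k, E = !![0, 1; 0, 0] := ⟨_, rfl⟩
  rw [← hE] at hconj
  have hNg : N = g * E * g' := by
    rw [← hconj]
    calc N = (g * g') * N * (g * g') := by rw [hgg', Matrix.one_mul, Matrix.mul_one]
      _ = g * (g' * N * g) * g' := by noncomm_ring
  have hB' : B' = 1 - N := by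
    have h1 : B * (1 - N) = 1 := by
      have : B * (1 - N) = 1 - N * N := by rw [hBN]; noncomm_ring
      rw [this, hN2, sub_zero]
    have hB'B : B' * B = 1 := mul_eq_one_comm.1 hBB'
    calc B' = B' * (B * (1 - N)) := by rw [h1, Matrix.mul_one]
      _ = 1 - N := by rw [← Matrix.mul_assoc, hB'B, Matrix.one_mul]
  -- the conjugated cocycle value
  obtain ⟨c0, hc0def⟩ : ∃ c0, c0 = g' * c * g := ⟨_, rfl⟩
  have hc0tr : c0.trace = 0 := by
    rw [hc0def, Matrix.trace_mul_cycle, hgg', Matrix.one_mul, hc0]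
  have hcN : (c * N).trace = 0 := by
    rw [hN, Matrix.mul_sub, Matrix.mul_one, Matrix.trace_sub, hcB, hc0, sub_zero]
  have hc0E : (c0 * E).trace = 0 := by
    have : c0 * E = g' * (c * N) * g := by
      rw [hc0def, ← hconj]
      calc g' * c * g * (g' * N * g) = g' * c * (g * g') * N * g := by noncomm_ring
        _ = g' * (c * N) * g := by rw [hgg']; noncomm_ring
    rw [this, Matrix.trace_mul_cycle, hgg', Matrix.one_mul, hcN]
  obtain ⟨a, b, c10, d, hc0eq⟩ : ∃ a b c10 d, c0 = !![a, b; c10, d] :=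
    ⟨c0 0 0, c0 0 1, c0 1 0, c0 1 1, Matrix.eta_fin_two c0⟩
  have hd : d = -a := by
    rw [hc0eq, Matrix.trace_fin_two] at hc0tr
    simp at hc0tr
    linear_combination hc0tr
  have hc10 : c10 = 0 := by
    rw [hc0eq, hE, Matrix.mul_fin_two, Matrix.trace_fin_two] at hc0E
    simpa using hc0E
  subst hd hc10
  obtain ⟨m0, hm0⟩ : ∃ m0 : Matrix (Fin 2) (Fin 2) k,
      m0 = !![-(a + b) / 2, 0; a, (a + b) / 2] := ⟨_, rfl⟩
  have hm0tr : m0.trace = 0 := by
    rw [hm0, Matrix.trace_fin_two]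
    simp
    ring
  have hkey : (1 + E) * m0 * (1 - E) - m0 = c0 := by
    rw [hc0eq, hm0, hE, Matrix.one_fin_two]
    simp only [Matrix.of_add_of, Matrix.of_sub_of]
    ext i j
    fin_cases i <;> fin_cases j <;> simp <;> field_simp <;> ring
  refine ⟨g * m0 * g', ?_, ?_⟩
  · rw [Matrix.trace_mul_cycle, hg'g, Matrix.one_mul, hm0tr]
  · have hc : c = g * c0 * g' := by
      rw [hc0def]
      calc c = (g * g') * c * (g * g') := by rw [hgg', Matrix.one_mul, Matrix.mul_one]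
        _ = g * (g' * c * g) * g' := by noncomm_ring
    have h1 : B = g * (1 + E) * g' := by
      rw [hBN, hNg, Matrix.mul_add, Matrix.add_mul, Matrix.mul_one, hgg']
    have h2' : B' = g * (1 - E) * g' := by
      rw [hB', hNg, Matrix.mul_sub, Matrix.sub_mul, Matrix.mul_one, hgg']
    rw [hc, ← hkey, h1, h2', s56q_conj_mul hg'g, s56q_conj_mul hg'g]
    noncomm_ring

end linalg

section main

variable {k : Type} [Field k]

theorem s56q_coc_one (B : GQ →* Matrix (Fin 2) (Fin 2) k) (c : GQ → Matrix (Fin 2) (Fin 2) k)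
    (hc : ∀ σ τ, c (σ * τ) = c σ + B σ * c τ * B σ⁻¹) : c 1 = 0 := by
  have h := hc 1 1
  rw [mul_one, inv_one, map_one, Matrix.one_mul, Matrix.mul_one] at h
  exact left_eq_add.mp h

/-- The deformation `σ ↦ B σ + ε c σ B σ` as a homomorphism to the dual numbers over `M₂(k)`. -/
noncomputable def s56q_pairHom (B : GQ →* Matrix (Fin 2) (Fin 2) k)
    (c : GQ → Matrix (Fin 2) (Fin 2) k)
    (hc : ∀ σ τ, c (σ * τ) = c σ + B σ * c τ * B σ⁻¹) :
    GQ →* TrivSqZeroExt (Matrix (Fin 2) (Fin 2) k) (Matrix (Fin 2) (Fin 2) k) where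
  toFun σ := TrivSqZeroExt.inl (B σ) + TrivSqZeroExt.inr (c σ * B σ)
  map_one' := by
    rw [s56q_coc_one B c hc, map_one, Matrix.zero_mul, TrivSqZeroExt.inr_zero, add_zero,
      TrivSqZeroExt.inl_one]
  map_mul' σ τ := by
    have h1 : c (σ * τ) * B (σ * τ) = B σ * (c τ * B τ) + c σ * B σ * B τ := by
      rw [hc, map_mul, Matrix.add_mul]
      have h2 : B σ * c τ * B σ⁻¹ * (B σ * B τ) = B σ * (c τ * B τ) := by
        calc B σ * c τ * B σ⁻¹ * (B σ * B τ) = B σ * c τ * (B σ⁻¹ * B σ) * B τ := by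
              noncomm_ring
          _ = B σ * (c τ * B τ) := by
              rw [← map_mul, inv_mul_cancel, map_one]; noncomm_ring
      rw [h2, add_comm, Matrix.mul_assoc (c σ)]
    refine TrivSqZeroExt.ext ?_ ?_
    · simp [map_mul]
    · simp only [TrivSqZeroExt.snd_add, TrivSqZeroExt.snd_inl, TrivSqZeroExt.snd_inr, zero_add,
        TrivSqZeroExt.snd_mul, TrivSqZeroExt.fst_add, TrivSqZeroExt.fst_inl,
        TrivSqZeroExt.fst_inr, add_zero, smul_eq_mul, MulOpposite.smul_eq_mul_unop,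
        MulOpposite.unop_op]
      exact h1

theorem s56q_pairHom_fst (B : GQ →* Matrix (Fin 2) (Fin 2) k) (c : GQ → Matrix (Fin 2) (Fin 2) k)
    (hc : ∀ σ τ, c (σ * τ) = c σ + B σ * c τ * B σ⁻¹) (σ : GQ) :
    (s56q_pairHom B c hc σ).fst = B σ := by
  simp [s56q_pairHom]

theorem s56q_pairHom_snd (B : GQ →* Matrix (Fin 2) (Fin 2) k) (c : GQ → Matrix (Fin 2) (Fin 2) k)
    (hc : ∀ σ τ, c (σ * τ) = c σ + B σ * c τ * B σ⁻¹) (σ : GQ) :
    (s56q_pairHom B c hc σ).snd = c σ * B σ := by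
  simp [s56q_pairHom]

/-- Unipotent values have `p`-power order. -/
theorem s56q_pairHom_pow {p : ℕ} [CharP k p]
    (B : GQ →* Matrix (Fin 2) (Fin 2) k) (c : GQ → Matrix (Fin 2) (Fin 2) k)
    (hc : ∀ σ τ, c (σ * τ) = c σ + B σ * c τ * B σ⁻¹) (σ : GQ)
    (htr : (B σ).trace = 2) (hdet : (B σ).det = 1) (hc0 : (c σ).trace = 0)
    (hcB : (c σ * B σ).trace = 0) : s56q_pairHom B c hc σ ^ p = 1 := by
  set A := s56q_pairHom B c hc σ with hA
  obtain ⟨X, hX⟩ : ∃ X, X = A - 1 := ⟨_, rfl⟩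
  have hAX : A = 1 + X := by rw [hX]; abel
  have hXX : X * X = 0 := by
    have h1 := s56q_ch2 (B σ)
    have h2 := s56q_ch2_pol (B σ) (c σ)
    rw [htr, hdet, one_smul] at h1
    rw [htr, hcB, hdet, hc0, zero_smul, mul_zero, zero_smul, add_zero, sub_zero] at h2
    rw [hX, hA]
    refine TrivSqZeroExt.ext ?_ ?_
    · simp only [TrivSqZeroExt.fst_mul, TrivSqZeroExt.fst_sub, s56q_pairHom_fst,
        TrivSqZeroExt.fst_one, TrivSqZeroExt.fst_zero]
      rw [← h1, two_smul]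
      noncomm_ring
    · simp only [TrivSqZeroExt.snd_mul, TrivSqZeroExt.fst_sub, TrivSqZeroExt.snd_sub,
        s56q_pairHom_fst, s56q_pairHom_snd, TrivSqZeroExt.fst_one, TrivSqZeroExt.snd_one,
        TrivSqZeroExt.snd_zero, sub_zero, smul_eq_mul, MulOpposite.smul_eq_mul_unop,
        MulOpposite.unop_op]
      rw [← h2, two_smul]
      noncomm_ring
  have hpow : ∀ n : ℕ, A ^ n = 1 + n • X := by
    intro n
    induction n with
    | zero => simp
    | succ n ih =>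
      rw [pow_succ, ih, hAX]
      have : (1 + n • X) * (1 + X) = 1 + (n + 1) • X + n • (X * X) := by
        rw [add_smul, one_smul]
        noncomm_ring
      rw [this, hXX, smul_zero, add_zero]
  rw [hpow p]
  have hpX : p • X = 0 := by
    rw [← Nat.cast_smul_eq_nsmul k, CharP.cast_eq_zero, zero_smul]
  rw [hpX, add_zero]

end main

section main2

variable {k : Type} [Field k]

/-- The coboundary formula propagates to powers. -/
theorem s56q_coc_pow (B : GQ →* Matrix (Fin 2) (Fin 2) k) (c : GQ → Matrix (Fin 2) (Fin 2) k)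
    (hc : ∀ σ τ, c (σ * τ) = c σ + B σ * c τ * B σ⁻¹) (τ : GQ) (m : Matrix (Fin 2) (Fin 2) k)
    (hm : c τ = B τ * m * B τ⁻¹ - m) (n : ℕ) :
    c (τ ^ n) = B (τ ^ n) * m * B (τ ^ n)⁻¹ - m := by
  induction n with
  | zero =>
    rw [pow_zero, s56q_coc_one B c hc, inv_one, map_one, Matrix.one_mul, Matrix.mul_one, sub_self]
  | succ n ih =>
    rw [pow_succ, hc, ih, hm, _root_.mul_inv_rev, map_mul, map_mul]
    noncomm_ring

/-- **[LOC-q], matrix level.** A deformation to `k[ε]` which is unipotent on the inertia group at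
`q ≠ p` and residually ramified has a cocycle which is a coboundary on inertia. -/
theorem s56q_unip_core (h2 : (2 : k) ≠ 0) {p : ℕ} [CharP k p] (hp : p.Prime) {q : ℕ}
    (hq : q.Prime) (hpq : p ≠ q) (P : ValuationSubring Qbar) (hP : P.LiesOverPrime q)
    (B : GQ →* Matrix (Fin 2) (Fin 2) k) (c : GQ → Matrix (Fin 2) (Fin 2) k)
    (hc : ∀ σ τ, c (σ * τ) = c σ + B σ * c τ * B σ⁻¹)
    (L : IntermediateField ℚ Qbar) [FiniteDimensional ℚ L]
    (hL : ∀ s ∈ L.fixingSubgroup, B s = 1 ∧ c s = 0)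
    (hunip : ∀ σ ∈ P.inertiaSubgroupIn ℚ, (B σ).trace = 2 ∧ (B σ).det = 1 ∧ (c σ).trace = 0 ∧
      (c σ * B σ).trace = 0)
    (hram : ∃ σ ∈ P.inertiaSubgroupIn ℚ, B σ ≠ 1) :
    ∃ m : Matrix (Fin 2) (Fin 2) k, m.trace = 0 ∧
      ∀ σ ∈ P.inertiaSubgroupIn ℚ, c σ = B σ * m * B σ⁻¹ - m := by
  set f := s56q_pairHom B c hc with hf
  have hfL : ∀ s ∈ L.fixingSubgroup, f s = 1 := by
    intro s hs
    obtain ⟨h1, h2'⟩ := hL s hs
    refine TrivSqZeroExt.ext ?_ ?_
    · rw [hf, s56q_pairHom_fst, h1, TrivSqZeroExt.fst_one]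
    · rw [hf, s56q_pairHom_snd, h2', Matrix.zero_mul, TrivSqZeroExt.snd_one]
  have hord : ∀ σ ∈ P.inertiaSubgroupIn ℚ, ∃ m : ℕ, 0 < m ∧ ¬ q ∣ m ∧ f σ ^ m = 1 := by
    intro σ hσ
    obtain ⟨h1, h2', h3, h4⟩ := hunip σ hσ
    refine ⟨p, hp.pos, fun hdvd => hpq ((Nat.prime_dvd_prime_iff_eq hq hp).1 hdvd).symm, ?_⟩
    exact s56q_pairHom_pow B c hc σ h1 h2' h3 h4
  obtain ⟨τ, hτI, hτ⟩ := s56q_tame_cyclic P hq hP f L hfL hord
  have hBpow : ∀ σ ∈ P.inertiaSubgroupIn ℚ, ∃ n : ℕ, B σ = B (τ ^ n) ∧ c σ = c (τ ^ n) := by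
    intro σ hσ
    obtain ⟨n, hn⟩ := hτ σ hσ
    rw [← map_pow] at hn
    have h1 : B σ = B (τ ^ n) := by
      have := congrArg TrivSqZeroExt.fst hn
      rwa [hf, s56q_pairHom_fst, s56q_pairHom_fst] at this
    have h2' : c σ * B σ = c (τ ^ n) * B (τ ^ n) := by
      have := congrArg TrivSqZeroExt.snd hn
      rwa [hf, s56q_pairHom_snd, s56q_pairHom_snd] at this
    refine ⟨n, h1, ?_⟩
    have hinv : B σ * B σ⁻¹ = 1 := by rw [← map_mul, mul_inv_cancel, map_one]
    calc c σ = c σ * B σ * B σ⁻¹ := by rw [Matrix.mul_assoc, hinv, Matrix.mul_one]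
      _ = c (τ ^ n) * B σ * B σ⁻¹ := by rw [h2', h1]
      _ = c (τ ^ n) := by rw [Matrix.mul_assoc, hinv, Matrix.mul_one]
  have hBτ : B τ ≠ 1 := by
    intro h1
    obtain ⟨σ, hσ, hσ1⟩ := hram
    obtain ⟨n, hn, -⟩ := hBpow σ hσ
    apply hσ1
    rw [hn, map_pow, h1, one_pow]
  obtain ⟨h1, h2', h3, h4⟩ := hunip τ hτI
  have hBB' : B τ * B τ⁻¹ = 1 := by rw [← map_mul, mul_inv_cancel, map_one]
  obtain ⟨m, hm0, hm⟩ := s56q_solve h2 (B τ) (B τ⁻¹) (c τ) hBB' h1 h2' hBτ h3 h4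
  refine ⟨m, hm0, fun σ hσ => ?_⟩
  obtain ⟨n, hn1, hn2⟩ := hBpow σ hσ
  have hinv : B σ⁻¹ = B (τ ^ n)⁻¹ := by
    have e1 : B σ⁻¹ * B σ = 1 := by rw [← map_mul, inv_mul_cancel, map_one]
    have e2 : B (τ ^ n) * B (τ ^ n)⁻¹ = 1 := by rw [← map_mul, mul_inv_cancel, map_one]
    calc B σ⁻¹ = B σ⁻¹ * (B (τ ^ n) * B (τ ^ n)⁻¹) := by rw [e2, Matrix.mul_one]
      _ = B σ⁻¹ * B σ * B (τ ^ n)⁻¹ := by rw [← hn1, Matrix.mul_assoc]
      _ = B (τ ^ n)⁻¹ := by rw [e1, Matrix.one_mul]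
  rw [hn2, hn1, hinv]
  exact s56q_coc_pow B c hc τ m hm n

end main2

end Fermat.Agent.S56
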