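import Mathlib
import Fermat.Agent.S56.Asm.Seams
import Fermat.Agent.S56.Tan.Spec
import Fermat.Agent.S56.Tan.Loc
import Fermat.Agent.S56.LocD.FrobGen
import Fermat.Agent.MZ.F3.TameFrobAt
import Fermat.Agent.S55.Places.Local
import Fermat.Agent.S56.LocQ.Unip

/-!
# S56, node [LOC-q]: the seam `s56a_LocQ_stmt` (prefix `s56q_`)

`q ≠ p`, `rb` ramified at `q`.  The subspace `C := s56a_Z rb ⊓ s56a_cobOn rb I_q` of finite-level
trace-zero cocycles which are coboundaries on the inertia group at `padicPlace q` contains the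
cocycle of every deformation to `k[ε]` with cyclotomic determinant and unipotent inertia at `q`
(`s56q_mem_C`, from `s56q_unip_core`), and modulo the coboundaries on the decomposition group its
dimension is at most `h⁰(D_q, ad⁰)` (`s56q_count`: evaluate at a Frobenius; `s56ld_frob_gen'`).
-/

set_option autoImplicit false
set_option linter.style.haveILetI false

open scoped Pointwise
open Matrix Polynomial Module
open Fermat.Agent.S53

namespace Fermat.Agent.S56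

local notation "Qbar" => AlgebraicClosure ℚ

section explicit

variable {k : Type} [Field k]

theorem s56q_fst_trace (M : Matrix (Fin 2) (Fin 2) (DualNumber k)) :
    (M.trace).fst = (s56t_fst M).trace := by
  rw [Matrix.trace_fin_two, Matrix.trace_fin_two]
  simp

theorem s56q_snd_trace (M : Matrix (Fin 2) (Fin 2) (DualNumber k)) :
    (M.trace).snd = (s56t_snd M).trace := by
  rw [Matrix.trace_fin_two, Matrix.trace_fin_two]
  simp

/-- the explicit form of `charpoly (r σ) = (X - 1) ^ 2`. -/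
theorem s56q_unip_explicit (r : FramedRep (DualNumber k)) (σ : GQ)
    (h : (r σ).charpoly = (X - 1) ^ 2) :
    (s56t_bar r σ).trace = 2 ∧ (s56t_bar r σ).det = 1 ∧
      (s56t_coc r σ * s56t_bar r σ).trace = 0 ∧ ((r σ).det).snd = 0 := by
  rw [Matrix.charpoly_fin_two] at h
  have hexp : (X - 1 : (DualNumber k)[X]) ^ 2 = X ^ 2 - C 2 * X + C 1 := by
    rw [map_ofNat, map_one]; ring
  rw [hexp] at h
  have h1 := congrArg (fun f : (DualNumber k)[X] => f.coeff 1) h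
  have h0 := congrArg (fun f : (DualNumber k)[X] => f.coeff 0) h
  simp only [coeff_add, coeff_sub, coeff_X_pow, coeff_C_mul, coeff_X_one, coeff_C, coeff_X_zero,
    mul_one, mul_zero] at h1 h0
  norm_num at h1 h0
  refine ⟨?_, ?_, ?_, ?_⟩
  · rw [s56t_bar_apply, ← s56q_fst_trace, h1]; rfl
  · rw [s56t_bar_apply, ← s56t_fst_det, h0]; rfl
  · rw [← s56t_snd_eq, ← s56q_snd_trace, h1]; rfl
  · rw [h0]; rfl

end explicit

section mem

variable (p : ℕ) [Fact p.Prime] {k : Type} [Field k] [Algebra (ZMod p) k]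

theorem s56q_charP : CharP k p :=
  charP_of_injective_algebraMap (algebraMap (ZMod p) k).injective p

theorem s56q_two_ne_zero (hp2 : p ≠ 2) : (2 : k) ≠ 0 := by
  haveI := s56q_charP p (k := k)
  intro h
  have h1 : ((2 : ℕ) : k) = 0 := by exact_mod_cast h
  rw [CharP.cast_eq_zero_iff k p] at h1
  exact hp2 ((Nat.prime_dvd_prime_iff_eq (Fact.out : p.Prime) Nat.prime_two).1 h1)

/-- the cocycle of a deformation with unipotent inertia at `q` is an unramified cocycle. -/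
theorem s56q_mem_C (hp2 : p ≠ 2) (rb : FramedResidual k) (q : ℕ) [Fact q.Prime] (hqp : q ≠ p)
    (hram : ∃ σ ∈ (padicPlace q).inertiaSubgroupIn ℚ, rb σ ≠ 1)
    (r : FramedRep (DualNumber k)) (hbar : ∀ σ, s56t_bar r σ = rb σ)
    (hdet : r.toGaloisRepAdic.DetIsCyclotomic p)
    (hun : r.toGaloisRepAdic.IsUnipotentOnInertiaAt q) :
    s56t_coc r ∈ s56a_Z rb ⊓ s56a_cobOn rb ((padicPlace q).inertiaSubgroupIn ℚ) := by
  haveI := s56q_charP p (k := k)
  have hP : (padicPlace q).LiesOverPrime q := Fermat.Agent.S55.pl_padicPlace_liesOver q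
  refine ⟨?_, ?_⟩
  · refine ⟨fun σ => s56t_cyc_trace r hdet σ, fun σ τ => ?_, ?_⟩
    · rw [s56t_coc_mul, hbar, hbar]
    · obtain ⟨L, hL, h⟩ := s56t_coc_level r
      exact ⟨L, hL, fun σ s hs => (h σ s hs).1⟩
  · obtain ⟨L, hLfd, hL⟩ := s56t_exists_level r
    haveI := hLfd
    obtain ⟨m, hm0, hm⟩ := s56q_unip_core (s56q_two_ne_zero p hp2) (Fact.out : p.Prime)
      (Fact.out : q.Prime) (Ne.symm hqp) (padicPlace q) hP (s56t_bar r) (s56t_coc r)
      (s56t_coc_mul r) L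
      (fun s hs => by
        have h1 := hL s ((IntermediateField.mem_fixingSubgroup_iff _ _).1 hs)
        exact ⟨s56t_bar_eq_one r h1, s56t_coc_eq_zero r h1⟩)
      (fun σ hσ => by
        obtain ⟨h1, h2, h3, h4⟩ := s56q_unip_explicit r σ (s56t_unip r hun _ hP σ hσ)
        exact ⟨h1, h2, s56t_coc_trace r h4, h3⟩)
      (by
        obtain ⟨σ, hσ, hσ1⟩ := hram
        exact ⟨σ, hσ, by rw [hbar]; exact hσ1⟩)
    refine ⟨m, hm0, fun σ hσ => ?_⟩
    rw [hm σ hσ, hbar, hbar]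

end mem

section dim

variable {k : Type} [Field k] (rb : FramedResidual k)

theorem s56q_rb_mul_inv (σ : GQ) : rb σ * rb σ⁻¹ = 1 := by
  rw [← rb.map_mul, mul_inv_cancel, rb.map_one]

theorem s56q_rb_inv_mul (σ : GQ) : rb σ⁻¹ * rb σ = 1 := by
  rw [← rb.map_mul, inv_mul_cancel, rb.map_one]

/-- the global coboundary of `m`. -/
noncomputable def s56q_cob (m : Matrix (Fin 2) (Fin 2) k) : GQ → Matrix (Fin 2) (Fin 2) k :=
  fun σ => rb σ * m * rb σ⁻¹ - m

theorem s56q_cob_mem_Z {m : Matrix (Fin 2) (Fin 2) k} (hm : m.trace = 0) :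
    s56q_cob rb m ∈ s56a_Z rb := by
  refine ⟨fun σ => ?_, fun σ τ => ?_, ?_⟩
  · show (rb σ * m * rb σ⁻¹ - m).trace = 0
    rw [Matrix.trace_sub, Matrix.trace_mul_cycle, s56q_rb_inv_mul, Matrix.one_mul, hm, sub_zero]
  · show rb (σ * τ) * m * rb (σ * τ)⁻¹ - m
      = rb σ * m * rb σ⁻¹ - m + rb σ * (rb τ * m * rb τ⁻¹ - m) * rb σ⁻¹
    rw [_root_.mul_inv_rev, rb.map_mul, rb.map_mul]
    noncomm_ring
  · obtain ⟨L, hL, h⟩ := rb.finiteLevel
    refine ⟨L, hL, fun σ s hs => ?_⟩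
    show rb (σ * s) * m * rb (σ * s)⁻¹ - m = rb σ * m * rb σ⁻¹ - m
    have h1 : rb s = 1 := h s hs
    have h2 : rb s⁻¹ = 1 := by
      have := s56q_rb_inv_mul rb s
      rwa [h1, Matrix.mul_one] at this
    rw [_root_.mul_inv_rev, rb.map_mul, rb.map_mul, h1, h2, Matrix.mul_one, Matrix.one_mul]

theorem s56q_cob_mem_cobOn {m : Matrix (Fin 2) (Fin 2) k} (hm : m.trace = 0) (H : Subgroup GQ) :
    s56q_cob rb m ∈ s56a_cobOn rb H :=
  ⟨m, hm, fun _ _ => rfl⟩

theorem s56q_cob_eq_zero {m : Matrix (Fin 2) (Fin 2) k} {H : Subgroup GQ}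
    (hm : m ∈ s56a_inv rb H) {σ : GQ} (hσ : σ ∈ H) : s56q_cob rb m σ = 0 := by
  show rb σ * m * rb σ⁻¹ - m = 0
  rw [hm.2 σ hσ, Matrix.mul_assoc, s56q_rb_mul_inv, Matrix.mul_one, sub_self]

/-- the cochains vanishing on a subgroup. -/
def s56q_vanOn (H : Subgroup GQ) : Submodule k (GQ → Matrix (Fin 2) (Fin 2) k) where
  carrier := {c | ∀ σ ∈ H, c σ = 0}
  add_mem' := by
    intro c c' h h' σ hσ
    rw [Pi.add_apply, h σ hσ, h' σ hσ, add_zero]
  zero_mem' := fun _ _ => rfl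
  smul_mem' := by
    intro a c h σ hσ
    rw [Pi.smul_apply, h σ hσ, smul_zero]

theorem s56q_coc_one' {c : GQ → Matrix (Fin 2) (Fin 2) k} (hc : c ∈ s56a_Z rb) : c 1 = 0 :=
  s56q_coc_one rb.toMonoidHom c hc.2.1

theorem s56q_coc_pow_zero {c : GQ → Matrix (Fin 2) (Fin 2) k} (hc : c ∈ s56a_Z rb) {φ : GQ}
    (hφ : c φ = 0) (n : ℕ) : c (φ ^ n) = 0 := by
  induction n with
  | zero => rw [pow_zero]; exact s56q_coc_one' rb hc
  | succ n ih => rw [pow_succ, hc.2.1, ih, hφ, Matrix.mul_zero, Matrix.zero_mul, add_zero]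

end dim

section frob

variable {k : Type} [Field k] (rb : FramedResidual k)
  (A : ValuationSubring Qbar) {q : ℕ} (hq : q.Prime) (hA : A.LiesOverPrime q)
  {φ : GQ} (hφ : A.IsFrobeniusAt φ q)

theorem s56q_inertia_conj {d σ : GQ} (hd : d ∈ A.decompositionSubgroup ℚ)
    (hσ : σ ∈ A.inertiaSubgroupIn ℚ) : d * σ * d⁻¹ ∈ A.inertiaSubgroupIn ℚ := by
  have h := Fermat.Agent.S55.tl_inertia_conj A d σ hσ
  have hdA : d • A = A := MulAction.mem_stabilizer_iff.1 hd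
  rwa [hdA] at h

include hq hA hφ in
/-- a finite-level cocycle vanishing on inertia and at a Frobenius vanishes on the decomposition
group. -/
theorem s56q_van_on_D {c : GQ → Matrix (Fin 2) (Fin 2) k} (hc : c ∈ s56a_Z rb)
    (hI : ∀ σ ∈ A.inertiaSubgroupIn ℚ, c σ = 0) (hcφ : c φ = 0) :
    ∀ d ∈ A.decompositionSubgroup ℚ, c d = 0 := by
  intro d hd
  obtain ⟨L, hLfd, hlev⟩ := hc.2.2
  haveI := hLfd
  obtain ⟨n, i, hi, s, hs, rfl⟩ := s56ld_frob_gen' A L hφ hq hA hd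
  rw [hlev (φ ^ n * i) s ((IntermediateField.mem_fixingSubgroup_iff _ _).1 hs), hc.2.1,
    s56q_coc_pow_zero rb hc hcφ, hI i hi, Matrix.mul_zero, Matrix.zero_mul, add_zero]

include hφ in
/-- the value at a Frobenius of a cocycle vanishing on inertia is inertia-invariant. -/
theorem s56q_frob_mem_inv {c : GQ → Matrix (Fin 2) (Fin 2) k} (hc : c ∈ s56a_Z rb)
    (hI : ∀ σ ∈ A.inertiaSubgroupIn ℚ, c σ = 0) :
    c φ ∈ s56a_inv rb (A.inertiaSubgroupIn ℚ) := by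
  refine ⟨hc.1 φ, fun σ hσ => ?_⟩
  have hφD : φ ∈ A.decompositionSubgroup ℚ := hφ.mem_decompositionSubgroup
  have hi : φ⁻¹ * σ * φ⁻¹⁻¹ ∈ A.inertiaSubgroupIn ℚ :=
    s56q_inertia_conj A (inv_mem hφD) hσ
  rw [inv_inv] at hi
  have h1 : c (φ * (φ⁻¹ * σ * φ)) = c φ := by
    rw [hc.2.1, hI _ hi, Matrix.mul_zero, Matrix.zero_mul, add_zero]
  have h2 : φ * (φ⁻¹ * σ * φ) = σ * φ := by group
  rw [h2, hc.2.1, hI σ hσ, zero_add] at h1
  -- h1 : rb σ * c φ * rb σ⁻¹ = c φ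
  calc rb σ * c φ = rb σ * c φ * (rb σ⁻¹ * rb σ) := by
        rw [s56q_rb_inv_mul, Matrix.mul_one]
    _ = (rb σ * c φ * rb σ⁻¹) * rb σ := by noncomm_ring
    _ = c φ * rb σ := by rw [h1]

include hq hA hφ in
/-- a cocycle vanishing on inertia whose value at Frobenius is `(φ - 1) m₁`, `m₁` inertia
invariant, is a coboundary on the decomposition group. -/
theorem s56q_cob_on_D {c : GQ → Matrix (Fin 2) (Fin 2) k} (hc : c ∈ s56a_Z rb)
    (hI : ∀ σ ∈ A.inertiaSubgroupIn ℚ, c σ = 0) {m₁ : Matrix (Fin 2) (Fin 2) k}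
    (hm₁ : m₁ ∈ s56a_inv rb (A.inertiaSubgroupIn ℚ)) (hcφ : c φ = rb φ * m₁ * rb φ⁻¹ - m₁) :
    c ∈ s56a_cobOn rb (A.decompositionSubgroup ℚ) := by
  refine ⟨m₁, hm₁.1, fun d hd => ?_⟩
  have hc' : c - s56q_cob rb m₁ ∈ s56a_Z rb :=
    Submodule.sub_mem _ hc (s56q_cob_mem_Z rb hm₁.1)
  have h0 := s56q_van_on_D rb A hq hA hφ hc'
    (fun σ hσ => by rw [Pi.sub_apply, hI σ hσ, s56q_cob_eq_zero rb hm₁ hσ, sub_zero])
    (by rw [Pi.sub_apply, hcφ]; exact sub_self _) d hd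
  rw [Pi.sub_apply, sub_eq_zero] at h0
  exact h0

include hq hA hφ in
/-- inertia-invariant and Frobenius-invariant ⟹ invariant under the decomposition group. -/
theorem s56q_inv_D {m : Matrix (Fin 2) (Fin 2) k}
    (hm : m ∈ s56a_inv rb (A.inertiaSubgroupIn ℚ)) (hmφ : rb φ * m = m * rb φ) :
    m ∈ s56a_inv rb (A.decompositionSubgroup ℚ) := by
  refine ⟨hm.1, fun d hd => ?_⟩
  obtain ⟨L, hLfd, hlev⟩ := rb.finiteLevel
  haveI := hLfd
  obtain ⟨n, i, hi, s, hs, rfl⟩ := s56ld_frob_gen' A L hφ hq hA hd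
  have hs1 : rb s = 1 := hlev s ((IntermediateField.mem_fixingSubgroup_iff _ _).1 hs)
  have hpow : ∀ n : ℕ, rb (φ ^ n) * m = m * rb (φ ^ n) := by
    intro n
    induction n with
    | zero => rw [pow_zero, rb.map_one, Matrix.one_mul, Matrix.mul_one]
    | succ n ih =>
      rw [pow_succ, rb.map_mul, Matrix.mul_assoc, hmφ, ← Matrix.mul_assoc, ih, Matrix.mul_assoc]
  rw [rb.map_mul, rb.map_mul, hs1, Matrix.mul_one, Matrix.mul_assoc, hm.2 i hi,
    ← Matrix.mul_assoc, hpow n, Matrix.mul_assoc]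

end frob

section count

variable {k : Type} [Field k] (rb : FramedResidual k)
  (A : ValuationSubring Qbar) {q : ℕ} (hq : q.Prime) (hA : A.LiesOverPrime q)
  {φ : GQ} (hφ : A.IsFrobeniusAt φ q)

include hφ in
theorem s56q_T_mem {m : Matrix (Fin 2) (Fin 2) k}
    (hm : m ∈ s56a_inv rb (A.inertiaSubgroupIn ℚ)) :
    rb φ * m * rb φ⁻¹ - m ∈ s56a_inv rb (A.inertiaSubgroupIn ℚ) := by
  refine ⟨?_, fun σ hσ => ?_⟩
  · rw [Matrix.trace_sub, Matrix.trace_mul_cycle, s56q_rb_inv_mul, Matrix.one_mul, hm.1, sub_zero]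
  · have hφD : φ ∈ A.decompositionSubgroup ℚ := hφ.mem_decompositionSubgroup
    have hi : φ⁻¹ * σ * φ⁻¹⁻¹ ∈ A.inertiaSubgroupIn ℚ :=
      s56q_inertia_conj A (inv_mem hφD) hσ
    rw [inv_inv] at hi
    have h1 : rb σ * rb φ = rb φ * rb (φ⁻¹ * σ * φ) := by
      rw [← rb.map_mul, ← rb.map_mul]; congr 1; group
    have h2 : rb (φ⁻¹ * σ * φ) * rb φ⁻¹ = rb φ⁻¹ * rb σ := by
      rw [← rb.map_mul, ← rb.map_mul]; congr 1; group
    have h3 := hm.2 _ hi
    have h4 := hm.2 σ hσ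
    calc rb σ * (rb φ * m * rb φ⁻¹ - m)
        = (rb σ * rb φ) * m * rb φ⁻¹ - rb σ * m := by noncomm_ring
      _ = rb φ * (rb (φ⁻¹ * σ * φ) * m) * rb φ⁻¹ - rb σ * m := by rw [h1]; noncomm_ring
      _ = rb φ * m * (rb (φ⁻¹ * σ * φ) * rb φ⁻¹) - m * rb σ := by rw [h3, h4]; noncomm_ring
      _ = (rb φ * m * rb φ⁻¹ - m) * rb σ := by rw [h2]; noncomm_ring

/-- `φ - 1` on the inertia invariants. -/
noncomputable def s56q_T : ↥(s56a_inv rb (A.inertiaSubgroupIn ℚ)) →ₗ[k]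
    ↥(s56a_inv rb (A.inertiaSubgroupIn ℚ)) where
  toFun m := ⟨rb φ * (m : Matrix (Fin 2) (Fin 2) k) * rb φ⁻¹ - m, s56q_T_mem rb A hφ m.2⟩
  map_add' m m' := by
    apply Subtype.ext
    show rb φ * ((m + m' : ↥(s56a_inv rb (A.inertiaSubgroupIn ℚ))) : Matrix (Fin 2) (Fin 2) k)
      * rb φ⁻¹ - ((m + m' : ↥(s56a_inv rb (A.inertiaSubgroupIn ℚ))) : Matrix (Fin 2) (Fin 2) k)
      = (rb φ * (m : Matrix (Fin 2) (Fin 2) k) * rb φ⁻¹ - m)
        + (rb φ * (m' : Matrix (Fin 2) (Fin 2) k) * rb φ⁻¹ - m')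
    rw [Submodule.coe_add]
    noncomm_ring
  map_smul' a m := by
    apply Subtype.ext
    show rb φ * ((a • m : ↥(s56a_inv rb (A.inertiaSubgroupIn ℚ))) : Matrix (Fin 2) (Fin 2) k)
      * rb φ⁻¹ - ((a • m : ↥(s56a_inv rb (A.inertiaSubgroupIn ℚ))) : Matrix (Fin 2) (Fin 2) k)
      = a • (rb φ * (m : Matrix (Fin 2) (Fin 2) k) * rb φ⁻¹ - m)
    rw [Submodule.coe_smul, Matrix.mul_smul, Matrix.smul_mul, smul_sub]

/-- evaluation at the Frobenius on the cocycles vanishing on inertia. -/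
noncomputable def s56q_ev : ↥(s56a_Z rb ⊓ s56q_vanOn (A.inertiaSubgroupIn ℚ)) →ₗ[k]
    ↥(s56a_inv rb (A.inertiaSubgroupIn ℚ)) where
  toFun c := ⟨(c : GQ → Matrix (Fin 2) (Fin 2) k) φ, s56q_frob_mem_inv rb A hφ c.2.1 c.2.2⟩
  map_add' _ _ := rfl
  map_smul' _ _ := rfl


theorem s56q_vanOn_le_cobOn (H : Subgroup GQ) :
    (s56q_vanOn H : Submodule k (GQ → Matrix (Fin 2) (Fin 2) k)) ≤ s56a_cobOn rb H := by
  intro c hc
  refine ⟨0, Matrix.trace_zero _ _, fun σ hσ => ?_⟩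
  rw [hc σ hσ]
  simp

include hq hA hφ in
/-- **the count**: unramified cocycle classes at `q` have dimension `≤ h⁰(D_q, ad⁰)`. -/
theorem s56q_count :
    FiniteDimensional k (↥(s56a_Z rb ⊓ s56a_cobOn rb (A.inertiaSubgroupIn ℚ)) ⧸
      (s56a_cobOn rb (A.decompositionSubgroup ℚ)).comap
        (s56a_Z rb ⊓ s56a_cobOn rb (A.inertiaSubgroupIn ℚ)).subtype) ∧
    finrank k (↥(s56a_Z rb ⊓ s56a_cobOn rb (A.inertiaSubgroupIn ℚ)) ⧸
      (s56a_cobOn rb (A.decompositionSubgroup ℚ)).comap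
        (s56a_Z rb ⊓ s56a_cobOn rb (A.inertiaSubgroupIn ℚ)).subtype)
      ≤ finrank k (s56a_inv rb (A.decompositionSubgroup ℚ)) := by
  set I := A.inertiaSubgroupIn ℚ with hI
  set D := A.decompositionSubgroup ℚ with hD
  set C := s56a_Z rb ⊓ s56a_cobOn rb I with hC
  set ZI := s56a_Z rb ⊓ (s56q_vanOn I : Submodule k (GQ → Matrix (Fin 2) (Fin 2) k)) with hZI
  set U := s56a_inv rb I with hU
  have hle : ZI ≤ C := inf_le_inf_left _ (s56q_vanOn_le_cobOn rb I)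
  set N := (s56a_cobOn rb D).comap C.subtype with hN
  let g : ↥ZI →ₗ[k] (↥C ⧸ N) := N.mkQ ∘ₗ Submodule.inclusion hle
  let T := s56q_T rb A hφ
  let Ψ : ↥ZI →ₗ[k] (↥U ⧸ LinearMap.range T) := (LinearMap.range T).mkQ ∘ₗ s56q_ev rb A hφ
  have hsurj : Function.Surjective g := by
    intro x
    obtain ⟨c, rfl⟩ := N.mkQ_surjective x
    obtain ⟨m, hm0, hm⟩ := c.2.2
    have hc'Z : (c : GQ → Matrix (Fin 2) (Fin 2) k) - s56q_cob rb m ∈ s56a_Z rb :=
      Submodule.sub_mem _ c.2.1 (s56q_cob_mem_Z rb hm0)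
    have hc'I : (c : GQ → Matrix (Fin 2) (Fin 2) k) - s56q_cob rb m ∈
        (s56q_vanOn I : Submodule k (GQ → Matrix (Fin 2) (Fin 2) k)) := by
      intro σ hσ
      rw [Pi.sub_apply, hm σ hσ]
      exact sub_self _
    refine ⟨⟨_, hc'Z, hc'I⟩, ?_⟩
    show N.mkQ _ = N.mkQ c
    rw [Submodule.mkQ_apply, Submodule.mkQ_apply, Submodule.Quotient.eq, hN, Submodule.mem_comap]
    have : C.subtype (Submodule.inclusion hle ⟨_, hc'Z, hc'I⟩ - c) = - s56q_cob rb m := by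
      show ((c : GQ → Matrix (Fin 2) (Fin 2) k) - s56q_cob rb m) - c = - s56q_cob rb m
      abel
    rw [this]
    exact Submodule.neg_mem _ (s56q_cob_mem_cobOn rb hm0 D)
  have hker : ∀ z : ↥ZI, Ψ z = 0 → g z = 0 := by
    intro z hz
    have h1 : s56q_ev rb A hφ z ∈ LinearMap.range T := by
      rwa [LinearMap.comp_apply, Submodule.mkQ_apply, Submodule.Quotient.mk_eq_zero] at hz
    obtain ⟨m₁, hm₁⟩ := h1
    have h2 : (z : GQ → Matrix (Fin 2) (Fin 2) k) φ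
        = rb φ * (m₁ : Matrix (Fin 2) (Fin 2) k) * rb φ⁻¹ - m₁ :=
      (congrArg Subtype.val hm₁).symm
    have h3 := s56q_cob_on_D rb A hq hA hφ z.2.1 z.2.2 m₁.2 h2
    show N.mkQ _ = 0
    rw [Submodule.mkQ_apply, Submodule.Quotient.mk_eq_zero, hN, Submodule.mem_comap]
    exact h3
  obtain ⟨hfd, hfin⟩ := s56t_finrank_range_le g Ψ hker
  have htop : LinearMap.range g = ⊤ := LinearMap.range_eq_top.2 hsurj
  have e : ↥(LinearMap.range g) ≃ₗ[k] (↥C ⧸ N) := LinearEquiv.ofTop _ htop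
  have hfdQ : FiniteDimensional k (↥C ⧸ N) := LinearEquiv.finiteDimensional e
  refine ⟨hfdQ, ?_⟩
  rw [← LinearEquiv.finrank_eq e]
  refine hfin.trans ?_
  have h1 : finrank k (↥U ⧸ LinearMap.range T) + finrank k (LinearMap.range T)
      = finrank k ↥U := Submodule.finrank_quotient_add_finrank (LinearMap.range T)
  have h2 : finrank k (LinearMap.range T) + finrank k (LinearMap.ker T) = finrank k ↥U :=
    LinearMap.finrank_range_add_finrank_ker T
  have h3 : finrank k (↥U ⧸ LinearMap.range T) = finrank k (LinearMap.ker T) := by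
    rw [← h2, add_comm] at h1
    exact Nat.add_left_cancel h1
  rw [h3]
  have h4 : (LinearMap.ker T).map U.subtype ≤ s56a_inv rb D := by
    rintro _ ⟨m, hm, rfl⟩
    have h5 : rb φ * (m : Matrix (Fin 2) (Fin 2) k) * rb φ⁻¹ - m = 0 :=
      congrArg Subtype.val (LinearMap.mem_ker.1 hm)
    have h6 : rb φ * (m : Matrix (Fin 2) (Fin 2) k) = m * rb φ := by
      have h7 : rb φ * (m : Matrix (Fin 2) (Fin 2) k) * rb φ⁻¹ = m := sub_eq_zero.1 h5
      calc rb φ * (m : Matrix (Fin 2) (Fin 2) k)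
          = rb φ * (m : Matrix (Fin 2) (Fin 2) k) * (rb φ⁻¹ * rb φ) := by
            rw [s56q_rb_inv_mul, Matrix.mul_one]
        _ = (rb φ * (m : Matrix (Fin 2) (Fin 2) k) * rb φ⁻¹) * rb φ := by noncomm_ring
        _ = m * rb φ := by rw [h7]
    exact s56q_inv_D rb A hq hA hφ m.2 h6
  calc finrank k (LinearMap.ker T) = finrank k ((LinearMap.ker T).map U.subtype) :=
        (Submodule.finrank_map_subtype_eq U (LinearMap.ker T)).symm
    _ ≤ finrank k (s56a_inv rb D) := Submodule.finrank_mono h4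

end count

section final

/-- **[LOC-q]**: the architect's seam. -/
theorem s56q_main : s56a_LocQ_stmt := by
  intro p _ hp2 k _ _ _ rb q _ hqp hram
  have hq : q.Prime := Fact.out
  have hP : (padicPlace q).LiesOverPrime q := Fermat.Agent.S55.pl_padicPlace_liesOver q
  -- ramification at the distinguished place
  have hram' : ∃ σ ∈ (padicPlace q).inertiaSubgroupIn ℚ, rb σ ≠ 1 := by
    unfold ResidualGaloisRep.IsUnramifiedAt at hram
    push Not at hram
    obtain ⟨A, hA, σ, hσ, hσ1⟩ := hram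
    obtain ⟨τ, hτ⟩ := Fermat.Agent.S55.pl_exists_smul_padicPlace q A hA
    have hconj := Fermat.Agent.S55.tl_inertia_conj A τ⁻¹ σ hσ
    rw [← hτ, inv_smul_smul, inv_inv] at hconj
    refine ⟨τ⁻¹ * σ * τ, hconj, fun h1 => hσ1 ?_⟩
    have h2 : rb σ = 1 := by
      have h3 : rb σ = rb τ * rb (τ⁻¹ * σ * τ) * rb τ⁻¹ := by
        rw [← rb.map_mul, ← rb.map_mul]; congr 1; group
      rw [h3, h1, Matrix.mul_one, s56q_rb_mul_inv]
    show Matrix.toLin' (rb.toMonoidHom σ) = 1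
    have h4 : rb.toMonoidHom σ = 1 := h2
    rw [h4, Matrix.toLin'_one]
    rfl
  obtain ⟨φ, hφ⟩ := Fermat.Agent.JT3.fex_exists_isFrobeniusAt hq (padicPlace q) hP
  refine ⟨s56a_Z rb ⊓ s56a_cobOn rb ((padicPlace q).inertiaSubgroupIn ℚ), ?_, ?_⟩
  · intro r hbar hP'
    exact s56q_mem_C p hp2 rb q hqp hram' r hbar hP'.1 hP'.2
  · have h := s56q_count rb (padicPlace q) hq hP hφ
    exact ⟨h.1, by rw [add_zero]; exact h.2⟩

end final

end Fermat.Agent.S56
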